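/-
S56 / FLAT package (helper25): DEFINITIONS (sorry-free).

Local language: `Ω := PadicAlgCl p`, `Γ := lbGal p = Gal(Ω/ℚ_p)` (S55 `LocalBridgeDefs`), levels
`lbLevels p`, absolute inertia `locInertia p` (LOC package, `Loc/Defs.lean`).
`Λ := GaloisRep.ratLocalizedAt p` is the Prelude's `ℤ_(p)`.

* `flPts p H`        : the group of `Ω`-points of a Hopf algebra `H` over `Λ` (Mathlib convolution group)
* `LocFlat p act`    : the `Γ`-set-with-addition `W` is the group of `Ω`-points of a finite flat
                       cocommutative Hopf algebra over `Λ` (local analogue of `GaloisRepAdic.IsFlatAt`)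
* `FlGood p L`       : `L ⊆ Ω` is the field generated by the values of the points of a finite flat
                       cocommutative Hopf algebra over `Λ` all of whose points are killed by `p`
                       (`hpfSplitField`, HOPF package: such `L` is finite Galois and `FlBounded`)
* `FlBounded p L`    : Fontaine's property `(P_m)` for all `m > p/(p-1)` over all unramified bases
                       (= hypothesis `hPM` of RAM `rm_top`, = conclusion of HOPF `hpf_top`)
* `flInertiaGal p L` : the inertia subgroup of `Gal(L/ℚ_p)`, `L` an abstract local field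
* `flExtAct r c`     : the action of `Γ` on `V × V = V ⊕ εV` through the lift `(1 + ε c) r`
* `IsFlCocycle r c`  : `c (σ τ) = c σ + r σ ∘ c τ ∘ r σ⁻¹`
-/
import Fermat.Prelude.Def_GaloisRep_Flat
import Fermat.Prelude.Def_GaloisRep_CompletionBridge
import Fermat.Agent.S55.LocalBridgeDefs
import Fermat.Agent.S56.Ram.Defs
import Fermat.Agent.S56.Loc.Defs
import Fermat.Agent.S56.Hopf.Rat

set_option autoImplicit false

namespace Fermat.Agent.S56

open Fermat.Agent.S55

section Pts

variable (p : ℕ) [Fact p.Prime]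

/-- the group of `PadicAlgCl p`-points of a Hopf algebra over `ℤ_(p)` (convolution product) -/
abbrev flPts (H : Type) [CommRing H] [HopfAlgebra (GaloisRep.ratLocalizedAt p) H] : Type :=
  WithConv (H →ₐ[GaloisRep.ratLocalizedAt p] PadicAlgCl p)

/-- `W` (an additive group with an action of `Γ = Gal(ℚ̄_p/ℚ_p)` by maps) is the group of
`ℚ̄_p`-points of a finite flat cocommutative Hopf algebra over `ℤ_(p)`, equivariantly. -/
def LocFlat {W : Type} [AddCommGroup W] (act : lbGal p → W → W) : Prop :=
  ∃ (H : Type) (_ : CommRing H) (_ : HopfAlgebra (GaloisRep.ratLocalizedAt p) H),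
    Module.Finite (GaloisRep.ratLocalizedAt p) H ∧
    Module.Flat (GaloisRep.ratLocalizedAt p) H ∧
    Coalgebra.IsCocomm (GaloisRep.ratLocalizedAt p) H ∧
    ∃ e : flPts p H ≃ W,
      (∀ f g : flPts p H, e (f * g) = e f + e g) ∧
      ∀ (τ : lbGal p) (f g : flPts p H), (∀ h : H, g h = τ (f h)) → e g = act τ (e f)

/-- `L` is the field generated by the values of the `ℚ̄_p`-points of a finite flat cocommutative Hopf
algebra over `ℤ_(p)` whose points are killed by `p`. -/
def FlGood (L : IntermediateField ℚ_[p] (PadicAlgCl p)) : Prop :=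
  ∃ (H : Type) (_ : CommRing H) (_ : HopfAlgebra (GaloisRep.ratLocalizedAt p) H),
    Module.Finite (GaloisRep.ratLocalizedAt p) H ∧
    Module.Flat (GaloisRep.ratLocalizedAt p) H ∧
    Coalgebra.IsCocomm (GaloisRep.ratLocalizedAt p) H ∧
    (∀ x : flPts p H, x ^ p = 1) ∧
    L = hpfSplitField p (GaloisRep.ratLocalizedAt p) H (PadicAlgCl p)

/-- Fontaine's `(P_m)` for all `m > p/(p-1)` over all unramified bases inside `L`
(VERBATIM the hypothesis `hPM` of `rm_top` and the conclusion of `hpf_top`). -/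
def FlBounded (L : Type) [Field L] [Algebra ℚ_[p] L] [FiniteDimensional ℚ_[p] L] : Prop :=
  ∀ (K' : Type) [Field K'] [Algebra ℚ_[p] K'] [FiniteDimensional ℚ_[p] K'] [Algebra K' L]
    [IsScalarTower ℚ_[p] K' L], LfUnramified p ℚ_[p] K' →
    ∀ m : ℚ, (p : ℚ) / ((p : ℚ) - 1) < m → RmPM p K' L m

/-- the inertia subgroup of `Gal(L/ℚ_p)` for a local field `L` (LOCAL language of S55) -/
def flInertiaGal (L : Type) [Field L] [Algebra ℚ_[p] L] [FiniteDimensional ℚ_[p] L] :
    Subgroup (L ≃ₐ[ℚ_[p]] L) where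
  carrier := {σ | ∀ y : L, y ∈ lfInt p L → spectralNorm ℚ_[p] L (σ y - y) < 1}
  one_mem' := fun y _ => by
    rw [AlgEquiv.one_apply, sub_self, spectralNorm_zero]
    exact zero_lt_one
  mul_mem' := by
    intro σ τ hσ hτ y hy
    have h1 : τ y ∈ lfInt p L := algEquiv_mem_lfInt p ℚ_[p] L τ hy
    have h2 : (σ * τ) y - y = (σ (τ y) - τ y) + (τ y - y) := by
      rw [AlgEquiv.mul_apply]; ring
    rw [h2]
    exact lt_of_le_of_lt (isNonarchimedean_spectralNorm (K := ℚ_[p]) (L := L) _ _)
      (max_lt (hσ _ h1) (hτ _ hy))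
  inv_mem' := by
    intro σ hσ y hy
    have h1 : σ⁻¹ y ∈ lfInt p L := algEquiv_mem_lfInt p ℚ_[p] L σ⁻¹ hy
    have h2 : σ⁻¹ y - y = -(σ (σ⁻¹ y) - σ⁻¹ y) := by
      have : σ (σ⁻¹ y) = y := by
        rw [AlgEquiv.aut_inv, AlgEquiv.apply_symm_apply]
      rw [this]; ring
    rw [h2, spectralNorm_neg (Algebra.IsAlgebraic.isAlgebraic _)]
    exact hσ _ h1

end Pts

section Lift

variable {p : ℕ} [Fact p.Prime] {k : Type} [Field k] {V : Type} [AddCommGroup V] [Module k V]

/-- cocycle condition for the adjoint action: `ρ = (1 + ε c) r` is multiplicative -/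
def IsFlCocycle (r : lbGal p →* Module.End k V) (c : lbGal p → Module.End k V) : Prop :=
  ∀ σ τ : lbGal p, c (σ * τ) = c σ + r σ * c τ * r σ⁻¹

/-- the action of `Γ` on `V × V = V ⊕ εV` through `(1 + ε c) r`:
`(v, w) ↦ (r τ v, r τ w + c τ (r τ v))` -/
noncomputable def flExtAct (r : lbGal p →* Module.End k V) (c : lbGal p → Module.End k V) :
    lbGal p → V × V → V × V :=
  fun τ vw => (r τ vw.1, r τ vw.2 + c τ (r τ vw.1))

/-- the trace-zero coboundary of `A`: `τ ↦ r τ A r τ⁻¹ - A` -/
noncomputable def flCobdry (r : lbGal p →* Module.End k V) (A : Module.End k V) : lbGal p → Module.End k V :=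
  fun τ => r τ * A * r τ⁻¹ - A

/-- `τ` acts on the `p`-th roots of unity of `ℚ̄_p` through `μ ↦ μ ^ a` -/
def FlCyc (τ : lbGal p) (a : ℕ) : Prop := ∀ μ : PadicAlgCl p, μ ^ p = 1 → τ μ = μ ^ a

end Lift

end Fermat.Agent.S56
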