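/-
S56 / FLAT package (helper25): the ABSTRACT interface between the local-field half (KUM) and the
counting half (CNT).  Pure algebra, `import Mathlib` only, sorry-free.

`TameKummerData p 𝒢` abstracts what we know about `𝒢 = Gal(L/ℚ_p)` when `L ∋ ζ_p` is finite Galois
and satisfies Fontaine's bound:

* `P ≤ I` : wild inertia and inertia; `F := L^P` is the maximal tame subextension, `kF` its residue
  field with the action `act` of `𝒢` (through `𝒢/I`), `φ` a Frobenius lift;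
* `u g = g(π)/π mod 𝔪_F` (`π` a uniformiser of `F`): a crossed homomorphism `𝒢 → kFˣ`; on `I` it is
  the fundamental tame character `θ`, injective modulo `P`; `θ^e' = ω` on `I`,
  `e = (p-1) e' = |I/P| = e(F/ℚ_p)`;
* Kummer theory over `F ∋ ζ_p`: a character `χ : P → 𝔽_p` has a Kummer generator `b_χ ∈ Fˣ/Fˣᵖ`;
  Fontaine's bound (RAM block) says `b_χ ∈ (1 + p𝒪_F) Fˣᵖ`, i.e. its LEVEL is `≥ e`; since `L/F` is
  totally ramified the level is `< p e'`; `Fil j` = characters of level `≥ j`; the leading term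
  `ι j χ ∈ 𝔪_F^j/𝔪_F^(j+1) = kF · π^j` is additive, injective on `Fil j / Fil (j+1)`, vanishes when
  `p ∣ j` (then `b_χ` can be improved by a `p`-th power), and
  `ι j (g • χ) = ω(g)⁻¹ · u(g)^j · g(ι j χ)`   (because `b_{g•χ} = g(b_χ)^(ω(g)⁻¹)`).
-/
import Mathlib

set_option autoImplicit false

namespace Fermat.Agent.S56

/-- conjugation action of `𝒢` on functions on a normal subgroup: `(g • χ)(x) = χ(g⁻¹ x g)` -/
def tkConj {𝒢 : Type} [Group 𝒢] (P : Subgroup 𝒢) [hP : P.Normal] {X : Type} (g : 𝒢)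
    (χ : ↥P → X) : ↥P → X :=
  fun x => χ ⟨g⁻¹ * (x : 𝒢) * g, by
    have := hP.conj_mem (x : 𝒢) x.2 g⁻¹
    rwa [inv_inv] at this⟩

/-- the abstract structure of `Gal(L/ℚ_p)` for `L ∋ ζ_p` satisfying Fontaine's bound -/
structure TameKummerData (p : ℕ) [Fact p.Prime] (𝒢 : Type) [Group 𝒢] where
  /-- wild inertia -/
  P : Subgroup 𝒢
  /-- inertia -/
  I : Subgroup 𝒢
  P_normal : P.Normal
  I_normal : I.Normal
  P_le_I : P ≤ I
  isPGroup : IsPGroup p ↥P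
  /-- a Frobenius lift -/
  φ : 𝒢
  gen : ∀ g : 𝒢, ∃ n : ℕ, g * φ ^ n ∈ I
  /-- the mod `p` cyclotomic character -/
  ω : 𝒢 →* (ZMod p)ˣ
  /-- the residue field of the maximal tame subextension `F = L^P` -/
  kF : Type
  [kF_field : Field kF]
  [kF_finite : Finite kF]
  [kF_char : CharP kF p]
  /-- the action of `𝒢` on `kF` -/
  act : 𝒢 →* (kF ≃+* kF)
  act_I : ∀ σ ∈ I, ∀ x : kF, act σ x = x
  act_φ : ∀ x : kF, act φ x = x ^ p
  /-- `g ↦ g(π)/π mod 𝔪_F` -/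
  u : 𝒢 → kFˣ
  u_mul : ∀ g h : 𝒢, (u (g * h) : kF) = (u g : kF) * act g (u h : kF)
  u_eq_one_iff : ∀ σ ∈ I, u σ = 1 ↔ σ ∈ P
  /-- `e(F/ℚ_p) / (p - 1)` -/
  e' : ℕ
  e'_pos : 0 < e'
  u_pow : ∀ σ ∈ I, (u σ : kF) ^ e' = ((ω σ : ZMod p).val : kF)
  card_I : Nat.card ↥I = (p - 1) * e' * Nat.card ↥P
  /-- `Fil j` = additive characters of `P` whose Kummer generator has level `≥ j` -/
  Fil : ℕ → AddSubgroup (↥P → ZMod p)
  Fil_char : ∀ j, ∀ χ ∈ Fil j, ∀ x y : ↥P, χ (x * y) = χ x + χ y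
  Fil_anti : Antitone Fil
  Fil_low : ∀ χ : ↥P → ZMod p, (∀ x y : ↥P, χ (x * y) = χ x + χ y) → χ ∈ Fil ((p - 1) * e')
  Fil_top : ∀ χ ∈ Fil (p * e'), χ = 0
  Fil_conj : ∀ j (g : 𝒢), ∀ χ ∈ Fil j, haveI := P_normal; tkConj P g χ ∈ Fil j
  /-- leading term of the Kummer generator at level `j` (junk outside `Fil j`) -/
  ι : ℕ → (↥P → ZMod p) → kF
  ι_add : ∀ j, ∀ χ ∈ Fil j, ∀ χ' ∈ Fil j, ι j (χ + χ') = ι j χ + ι j χ'
  ι_eq_zero_iff : ∀ j, ∀ χ ∈ Fil j, ι j χ = 0 ↔ χ ∈ Fil (j + 1)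
  ι_dvd : ∀ j, p ∣ j → ∀ χ ∈ Fil j, ι j χ = 0
  ι_conj : ∀ j (g : 𝒢), ∀ χ ∈ Fil j, haveI := P_normal
    ι j (tkConj P g χ) = (((ω g)⁻¹ : (ZMod p)ˣ) : ZMod p).val • ((u g : kF) ^ j * act g (ι j χ))

attribute [instance] TameKummerData.kF_field TameKummerData.kF_finite TameKummerData.kF_char

section Coc

variable {𝒢 : Type} [Group 𝒢] {k : Type} [Field k] {V : Type} [AddCommGroup V] [Module k V]

/-- `1`-cocycles of a finite group with values in `End V` (adjoint action), trace zero -/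
def IsAdCocycle (r : 𝒢 →* Module.End k V) (c : 𝒢 → Module.End k V) : Prop :=
  (∀ g h : 𝒢, c (g * h) = c g + r g * c h * r g⁻¹) ∧ ∀ g, LinearMap.trace k V (c g) = 0

/-- the coboundary of `A` -/
def adCobdry (r : 𝒢 →* Module.End k V) (A : Module.End k V) : 𝒢 → Module.End k V :=
  fun g => r g * A * r g⁻¹ - A

/-- `ℓ` is a `𝒢`-stable line -/
def IsStableLine (r : 𝒢 →* Module.End k V) (ℓ : Submodule k V) : Prop :=
  Module.finrank k ↥ℓ = 1 ∧ ∀ g : 𝒢, ∀ v ∈ ℓ, r g v ∈ ℓ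

/-- the component `Hom(ℓ, V/ℓ)` of `c` is a coboundary: after subtracting a coboundary, `c` has
values in the Borel subalgebra of `ℓ` -/
def IsBorelUpToCobdry (r : 𝒢 →* Module.End k V) (ℓ : Submodule k V) (c : 𝒢 → Module.End k V) :
    Prop :=
  ∃ A : Module.End k V, LinearMap.trace k V A = 0 ∧ ∀ g : 𝒢, ∀ v ∈ ℓ, (c g - adCobdry r A g) v ∈ ℓ

end Coc

end Fermat.Agent.S56
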