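/-
S56 / FLAT package (helper25): auxiliary lemmas for the assembly `fl_main` (Mathlib + TameDefs only).
-/
import Fermat.Agent.S56.Flat.TameDefs

set_option autoImplicit false

namespace Fermat.Agent.S56

/-! ### inertia acts non-trivially on `μ_p` (from the numerology of `TameKummerData`) -/

section Tame

variable {p : ℕ} [Fact p.Prime] {𝒢 : Type} [Group 𝒢] [Finite 𝒢]

/-- the restriction of `u` to inertia is a homomorphism `θ : I →* kFˣ` -/
noncomputable def flmTheta (D : TameKummerData p 𝒢) : ↥D.I →* D.kFˣ where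
  toFun σ := D.u σ
  map_one' := by
    have h := D.u_mul 1 1
    rw [one_mul, map_one] at h
    have h0 : (1 : D.kF ≃+* D.kF) ((D.u (1 : 𝒢) : D.kFˣ) : D.kF) = ((D.u (1 : 𝒢) : D.kFˣ) : D.kF) := rfl
    rw [h0] at h
    have h2 : ((D.u (1 : 𝒢) : D.kFˣ) : D.kF) ≠ 0 := Units.ne_zero _
    have h3 : ((D.u (1 : 𝒢) : D.kFˣ) : D.kF) = 1 := by
      have := mul_left_cancel₀ h2 (by rw [mul_one]; exact h : (D.u 1 : D.kF) * 1 = (D.u 1 : D.kF) * (D.u 1 : D.kF))
      exact this.symm
    exact Units.ext h3
  map_mul' σ τ := by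
    apply Units.ext
    have h := D.u_mul (σ : 𝒢) (τ : 𝒢)
    rw [D.act_I _ σ.2] at h
    simpa using h

theorem flmTheta_ker (D : TameKummerData p 𝒢) (σ : ↥D.I) :
    flmTheta D σ = 1 ↔ (σ : 𝒢) ∈ D.P :=
  D.u_eq_one_iff σ σ.2

/-- **inertia acts non-trivially on `μ_p`.** -/
theorem flm_exists_omega_ne_one (hp2 : p ≠ 2) (D : TameKummerData p 𝒢) :
    ∃ σ ∈ D.I, D.ω σ ≠ 1 := by
  classical
  by_contra hcon
  push Not at hcon
  have hp : p.Prime := Fact.out
  -- all values of `θ` are `e'`-th roots of unity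
  have hroot : ∀ σ : ↥D.I, (flmTheta D σ : D.kF) ^ D.e' = 1 := by
    intro σ
    have h := D.u_pow σ σ.2
    rw [hcon σ σ.2] at h
    have h1 : (((1 : (ZMod p)ˣ) : ZMod p)).val = 1 := by
      rw [Units.val_one]
      haveI : Fact (1 < p) := ⟨hp.one_lt⟩
      exact ZMod.val_one p
    rw [h1, Nat.cast_one] at h
    exact h
  -- the image of `θ` has at most `e'` elements
  have himg : Nat.card ↥(flmTheta D).range ≤ D.e' := by
    have hinj : Function.Injective
        (fun x : ↥(flmTheta D).range => (⟨((x : D.kFˣ) : D.kF), by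
          obtain ⟨σ, hσ⟩ := x.2
          rw [Polynomial.mem_nthRootsFinset D.e'_pos, ← hσ]
          exact hroot σ⟩ : ↥(Polynomial.nthRootsFinset D.e' (1 : D.kF)))) := by
      intro x y hxy
      have h1 : ((x : D.kFˣ) : D.kF) = ((y : D.kFˣ) : D.kF) := congrArg Subtype.val hxy
      exact Subtype.ext (Units.ext h1)
    have h2 := Nat.card_le_card_of_injective _ hinj
    refine h2.trans ?_
    rw [Nat.card_eq_fintype_card, Fintype.card_coe, Polynomial.nthRootsFinset]
    exact (Multiset.toFinset_card_le _).trans (Polynomial.card_nthRoots _ _)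
  -- `|I| = |ker θ| · |im θ|` and `ker θ ≅ P`
  have hker : Nat.card ↥(flmTheta D).ker = Nat.card ↥D.P := by
    refine Nat.card_congr ?_
    refine
      { toFun := fun x => ⟨((x : ↥D.I) : 𝒢), (flmTheta_ker D x).1 (MonoidHom.mem_ker.1 x.2)⟩
        invFun := fun y => ⟨⟨(y : 𝒢), D.P_le_I y.2⟩,
          MonoidHom.mem_ker.2 ((flmTheta_ker D ⟨(y : 𝒢), D.P_le_I y.2⟩).2 y.2)⟩
        left_inv := fun x => rfl
        right_inv := fun y => rfl }
  have hcard : Nat.card ↥D.I = Nat.card ↥(flmTheta D).ker * Nat.card ↥(flmTheta D).range := by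
    have h1 := Subgroup.card_eq_card_quotient_mul_card_subgroup (flmTheta D).ker
    have h2 : Nat.card (↥D.I ⧸ (flmTheta D).ker) = Nat.card ↥(flmTheta D).range :=
      Nat.card_congr (QuotientGroup.quotientKerEquivRange (flmTheta D)).toEquiv
    rw [h1, h2, mul_comm]
  have hPpos : 0 < Nat.card ↥D.P := Nat.card_pos
  have h3 : (p - 1) * D.e' * Nat.card ↥D.P ≤ Nat.card ↥D.P * D.e' := by
    rw [← D.card_I, hcard, hker]
    exact Nat.mul_le_mul_left _ himg
  have h4 : 2 ≤ p - 1 := by
    have := hp.two_le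
    omega
  have h5 : 2 * (D.e' * Nat.card ↥D.P) ≤ (p - 1) * D.e' * Nat.card ↥D.P := by
    rw [mul_assoc]
    exact Nat.mul_le_mul_right _ h4
  have h6 : 0 < D.e' * Nat.card ↥D.P := Nat.mul_pos D.e'_pos hPpos
  have h7 : Nat.card ↥D.P * D.e' = D.e' * Nat.card ↥D.P := mul_comm _ _
  omega

end Tame

/-! ### a unipotent endomorphism has determinant one -/

section Det

variable {k : Type} [Field k] {V : Type} [AddCommGroup V] [Module k V] [Module.Finite k V]

theorem flm_det_eq_one (hV : Module.finrank k V = 2) (f : Module.End k V) (ℓ : Submodule k V)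
    (hℓ : Module.finrank k ↥ℓ = 1) (h1 : ∀ v ∈ ℓ, f v = v) (h2 : ∀ v : V, f v - v ∈ ℓ) :
    LinearMap.det f = 1 := by
  classical
  -- `N = f - 1` satisfies `N ^ 2 = 0`
  set N : Module.End k V := f - 1 with hN
  have hNN : N * N = 0 := by
    ext v
    have hv : N v ∈ ℓ := by
      simpa [hN] using h2 v
    have := h1 _ hv
    simp only [hN, Module.End.mul_apply, LinearMap.sub_apply, Module.End.one_apply,
      LinearMap.zero_apply] at this ⊢
    rw [this, sub_self]
  have hnil : IsNilpotent N := ⟨2, by rw [pow_two, hNN]⟩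
  have hf : f = 1 + N := by rw [hN]; abel
  -- charpoly of a nilpotent is `X ^ 2`
  have hcp : N.charpoly = Polynomial.X ^ 2 := by
    have := (LinearMap.charpoly_nilpotent_tfae N).out 0 1
    rw [← hV]
    exact this.1 hnil
  -- det (1 + N) = charpoly(-N)(1)... use `det (1 + N)` via `LinearMap.det` and eval of charpoly
  have hdet : LinearMap.det f = Polynomial.eval 1 (-N).charpoly := by
    rw [hf]
    have h := LinearMap.det_eq_sign_charpoly_coeff (1 + N)
    -- easier: eval of charpoly at 1 of (-N) is det (1 • 1 - (-N)) = det (1 + N)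
    have h' : Polynomial.eval (1 : k) (-N).charpoly = LinearMap.det ((1 : k) • (1 : Module.End k V) - (-N)) := by
      rw [LinearMap.eval_charpoly]
      rfl
    rw [h', one_smul, sub_neg_eq_add]
  have hnil' : IsNilpotent (-N) := hnil.neg
  have hcp' : (-N).charpoly = Polynomial.X ^ 2 := by
    have := (LinearMap.charpoly_nilpotent_tfae (-N)).out 0 1
    rw [← hV]
    exact this.1 hnil'
  rw [hdet, hcp']
  simp

end Det

/-! ### cardinality of a set all of whose finite subsets are small -/

theorem flm_card_le_of_finset {X : Type*} (N : ℕ) (h : ∀ T : Finset X, T.card ≤ N) :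
    Finite X ∧ Nat.card X ≤ N := by
  classical
  have hfin : Finite X := by
    by_contra hinf
    rw [not_finite_iff_infinite] at hinf
    obtain ⟨T, hT⟩ := Infinite.exists_subset_card_eq X (N + 1)
    have := h T
    omega
  refine ⟨hfin, ?_⟩
  haveI := Fintype.ofFinite X
  rw [Nat.card_eq_fintype_card]
  exact h Finset.univ

end Fermat.Agent.S56
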