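/-
S56 / FLAT, leaf BRIDGE (row 409, helper16): `fl_locFlat_of_global` VERBATIM from Flat/Spec.lean
(helper25 b762655).  Built on Hopf/Bridge.lean (`hpfbLoc`: global points ≃* local points).
-/
import Fermat.Agent.S56.Flat.Defs
import Fermat.Agent.S56.Hopf.Bridge

set_option autoImplicit false
set_option linter.unusedVariables false
set_option linter.unusedSectionVars false

noncomputable section

namespace Fermat.Agent.S56

open Fermat.Agent.S55 Polynomial

section Bridge

variable (p : ℕ) [Fact p.Prime]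

/-- **leaf BRIDGE.** -/
theorem fl_locFlat_of_global {W : Type} [AddCommGroup W]
    (actQ : (AlgebraicClosure ℚ ≃ₐ[ℚ] AlgebraicClosure ℚ) → W → W)
    (H : Type) [CommRing H] [HopfAlgebra (GaloisRep.ratLocalizedAt p) H]
    (hfin : Module.Finite (GaloisRep.ratLocalizedAt p) H)
    (hflat : Module.Flat (GaloisRep.ratLocalizedAt p) H)
    (hco : Coalgebra.IsCocomm (GaloisRep.ratLocalizedAt p) H)
    (e : WithConv (H →ₐ[GaloisRep.ratLocalizedAt p] AlgebraicClosure ℚ) ≃ W)
    (hadd : ∀ f g : WithConv (H →ₐ[GaloisRep.ratLocalizedAt p] AlgebraicClosure ℚ),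
      e (f * g) = e f + e g)
    (heq : ∀ (σ : AlgebraicClosure ℚ ≃ₐ[ℚ] AlgebraicClosure ℚ)
      (f g : WithConv (H →ₐ[GaloisRep.ratLocalizedAt p] AlgebraicClosure ℚ)),
      (∀ h : H, g h = σ (f h)) → e g = actQ σ (e f)) :
    LocFlat p (fun τ : lbGal p => actQ (localGaloisToGlobal p τ)) := by
  refine ⟨H, inferInstance, inferInstance, hfin, hflat, hco,
    (hpfbLoc p H).symm.toEquiv.trans e, ?_, ?_⟩
  · intro f g
    change e ((hpfbLoc p H).symm (f * g)) = e ((hpfbLoc p H).symm f) + e ((hpfbLoc p H).symm g)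
    rw [map_mul, hadd]
  · intro τ f g hfg
    change e ((hpfbLoc p H).symm g) = actQ (localGaloisToGlobal p τ) (e ((hpfbLoc p H).symm f))
    apply heq
    intro h
    apply (padicEmbedding p).injective
    change padicEmbedding p (((hpfbLoc p H).symm g).ofConv h) =
      padicEmbedding p (localGaloisToGlobal p τ (((hpfbLoc p H).symm f).ofConv h))
    rw [padicEmbedding_localGaloisToGlobal]
    have h1 : ∀ x : flPts p H, padicEmbedding p (((hpfbLoc p H).symm x).ofConv h) = x.ofConv h := by
      intro x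
      rw [← hpfbLoc_apply, MulEquiv.apply_symm_apply]
    exact (h1 g).trans ((hfg h).trans (congrArg τ (h1 f).symm))

end Bridge

end Fermat.Agent.S56
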