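/-
S56 / FLAT row 413 (helper15): `fl_ce`, the multiplicative part of a finite flat group scheme killed by
`p` (`p` odd), in the relational form of `Flat/Spec.lean` - an adapter over
`ce3_flat_mult_prelude` (`Fermat/Agent/S56/Ce/Main.lean`).
-/
import Fermat.Agent.S56.Flat.Defs
import Fermat.Agent.S56.Ce.Main

set_option autoImplicit false
set_option linter.unusedVariables false

namespace Fermat.Agent.S56

open Fermat.Agent.S55

section Ce

variable (p : ℕ) [Fact p.Prime]

/-- **block CE (helper15).** `H` finite flat over `ℤ_(p)`, points killed by `p`, `W₂ ≤ W₃` subgroups of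
the group of points, `W₃` stable under `Γ`, inertia acting on `W₃/W₂` through the cyclotomic character.
Then `W₃ = W₂ · W₃^μ`, where `W₃^μ` = the points of `W₃` on which inertia acts through the cyclotomic
character EXACTLY.  (Galois action on points in relational form: `y = τ ∘ x`.  Mathlib has no `Group`
instance on `flPts p H` (its `convGroup` wants a bialgebra as target), hence `Submonoid` and no
inverses; the points form a finite monoid killed by `p`, so submonoids are subgroups.) -/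
theorem fl_ce (hp2 : p ≠ 2) (H : Type) [CommRing H] [HopfAlgebra (GaloisRep.ratLocalizedAt p) H]
    [Module.Finite (GaloisRep.ratLocalizedAt p) H] [Module.Flat (GaloisRep.ratLocalizedAt p) H]
    [Coalgebra.IsCocomm (GaloisRep.ratLocalizedAt p) H]
    (hkill : ∀ x : flPts p H, x ^ p = 1)
    (W₂ W₃ : Submonoid (flPts p H)) (h23 : W₂ ≤ W₃)
    (hW₃ : ∀ (τ : lbGal p) (x y : flPts p H), x ∈ W₃ → (∀ h : H, y h = τ (x h)) → y ∈ W₃)
    (hω : ∀ σ ∈ locInertia p, ∀ a : ℕ, FlCyc σ a →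
      ∀ x y : flPts p H, x ∈ W₃ → (∀ h : H, y h = σ (x h)) → ∃ w ∈ W₂, y = w * x ^ a)
    (x : flPts p H) (hx : x ∈ W₃) :
    ∃ m ∈ W₃, (∃ w ∈ W₂, x = w * m) ∧
      ∀ σ ∈ locInertia p, ∀ a : ℕ, FlCyc σ a →
        ∀ y : flPts p H, (∀ h : H, y h = σ (m h)) → y = m ^ a := by
  have hΛ : Ce3IntBase p (GaloisRep.ratLocalizedAt p) := ce3IntBase_ratLocalizedAt
  obtain ⟨Wm, hWm3, -, hWmω, hdec⟩ := ce3_flat_mult_prelude (p := p) (H := H) hp2 W₃ W₂
    (fun x _ => hkill x)
    (fun τ x hx => hW₃ τ x (ce3PtAct hΛ τ x) hx (fun h => rfl))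
    (fun σ hσ a ha x hx => by
      obtain ⟨w, hw, hy⟩ := hω σ hσ a ha x (ce3PtAct hΛ σ x) hx (fun h => rfl)
      exact ⟨w, hw, by rw [hy, mul_comm]⟩)
  obtain ⟨m, hm, w, hw, hxmw⟩ := hdec x hx
  refine ⟨m, hWm3 hm, ⟨w, hw, by rw [hxmw, mul_comm]⟩, ?_⟩
  intro σ hσ a ha y hy
  have h1 : y = ce3PtAct hΛ σ m := ce3_pt_ext fun h => hy h
  rw [h1]
  exact hWmω σ hσ a ha m hm

end Ce

end Fermat.Agent.S56
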