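/-
S56 / FLAT rows 414 + 415 (helper15): common lemmas for the two applications of `fl_ce`
(linear algebra in dimension two; transport along a `LocFlat` datum).  Prefix `flce_`.
-/
import Fermat.Agent.S56.Flat.Ce

set_option autoImplicit false
set_option linter.unusedSectionVars false

namespace Fermat.Agent.S56

open Fermat.Agent.S55

section LA

variable {k : Type} [Field k] {V : Type} [AddCommGroup V] [Module k V] [Module.Finite k V]

/-- an endomorphism of a plane fixing a line pointwise acts on the quotient by its determinant -/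
theorem flce_sub_det_smul_mem (hV : Module.finrank k V = 2) (ℓ : Submodule k V)
    (hℓ : Module.finrank k ↥ℓ = 1) (T : Module.End k V) (hT : ∀ v ∈ ℓ, T v = v) (w : V) :
    T w - LinearMap.det T • w ∈ ℓ := by
  have he : ℓ ≤ ℓ.comap T := fun v hv => by
    rw [Submodule.mem_comap, hT v hv]; exact hv
  have h1 := LinearMap.det_eq_det_mul_det ℓ T he
  have h2 : T.restrict he = LinearMap.id := by
    ext v
    exact hT v v.2
  rw [h2, LinearMap.det_id, one_mul] at h1
  have hq : Module.finrank k (V ⧸ ℓ) = 1 := by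
    have := Submodule.finrank_quotient_add_finrank ℓ
    omega
  obtain ⟨c, hc, -⟩ := LinearMap.existsUnique_eq_smul_id_of_finrank_eq_one hq (ℓ.mapQ ℓ T he)
  have h3 : LinearMap.det (ℓ.mapQ ℓ T he) = c := by
    rw [hc, LinearMap.det_smul, hq, pow_one, LinearMap.det_id, mul_one]
  rw [h3] at h1
  rw [h1, ← Submodule.Quotient.mk_eq_zero, Submodule.Quotient.mk_sub, Submodule.Quotient.mk_smul]
  have h4 : (Submodule.Quotient.mk (T w) : V ⧸ ℓ) = ℓ.mapQ ℓ T he (Submodule.Quotient.mk w) := rfl
  rw [h4, hc]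
  simp

/-- an endomorphism of a plane preserving a line and trivial on the quotient acts on the line by
its determinant -/
theorem flce_eq_det_smul (ℓ : Submodule k V)
    (hℓ : Module.finrank k ↥ℓ = 1) (T : Module.End k V) (hst : ∀ v ∈ ℓ, T v ∈ ℓ)
    (hT : ∀ w : V, T w - w ∈ ℓ) {v : V} (hv : v ∈ ℓ) : T v = LinearMap.det T • v := by
  have he : ℓ ≤ ℓ.comap T := fun v hv => hst v hv
  have h1 := LinearMap.det_eq_det_mul_det ℓ T he
  have h2 : ℓ.mapQ ℓ T he = LinearMap.id := by
    apply LinearMap.ext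
    intro x
    obtain ⟨w, rfl⟩ := Submodule.Quotient.mk_surjective ℓ x
    show (Submodule.Quotient.mk (T w) : V ⧸ ℓ) = Submodule.Quotient.mk w
    rw [← sub_eq_zero, ← Submodule.Quotient.mk_sub, Submodule.Quotient.mk_eq_zero]
    exact hT w
  rw [h2, LinearMap.det_id, mul_one] at h1
  obtain ⟨c, hc, -⟩ := LinearMap.existsUnique_eq_smul_id_of_finrank_eq_one hℓ (T.restrict he)
  have h3 : LinearMap.det (T.restrict he) = c := by
    rw [hc, LinearMap.det_smul, hℓ, pow_one, LinearMap.det_id, mul_one]
  rw [h3] at h1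
  have h4 : (T.restrict he ⟨v, hv⟩ : V) = T v := rfl
  rw [h1, ← h4, hc]
  rfl

end LA


section Transport

variable {p : ℕ} [Fact p.Prime]

/-- conjugation does not change the cyclotomic exponent -/
theorem flce_flCyc_conj {σ : lbGal p} {a : ℕ} (h : FlCyc σ a) (τ : lbGal p) :
    FlCyc (τ⁻¹ * σ * τ) a := by
  intro μ hμ
  have h1 : (τ μ) ^ p = 1 := by rw [← map_pow, hμ, map_one]
  have h2 : (τ⁻¹ * σ * τ) μ = τ⁻¹ (σ (τ μ)) := rfl
  rw [h2, h _ h1, map_pow]
  congr 1
  exact AlgEquiv.symm_apply_apply τ μ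

/-- every Galois automorphism has a cyclotomic exponent -/
theorem flce_exists_flCyc (σ : lbGal p) : ∃ a : ℕ, FlCyc σ a := ce3_exists_pow p σ

variable {W : Type} [AddCommGroup W]
  {H : Type} [CommRing H] [HopfAlgebra (GaloisRep.ratLocalizedAt p) H]
  [Coalgebra.IsCocomm (GaloisRep.ratLocalizedAt p) H]
  (e : flPts p H ≃ W) (hadd : ∀ f g : flPts p H, e (f * g) = e f + e g)

include hadd in
theorem flce_e_one : e 1 = 0 := by
  have h := hadd 1 1
  rw [one_mul] at h
  exact left_eq_add.mp h

include hadd in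
theorem flce_e_pow (x : flPts p H) (n : ℕ) : e (x ^ n) = n • e x := by
  induction n with
  | zero => rw [pow_zero, zero_smul]; exact flce_e_one e hadd
  | succ n ih => rw [pow_succ, hadd, ih, succ_nsmul]

include hadd in
theorem flce_kill (hW : ∀ w : W, p • w = 0) (x : flPts p H) : x ^ p = 1 := by
  apply e.injective
  rw [flce_e_pow e hadd, hW, flce_e_one e hadd]

/-- the Galois translate of a point -/
noncomputable def flceTr (τ : lbGal p) (x : flPts p H) : flPts p H :=
  ce3PtAct ce3IntBase_ratLocalizedAt τ x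

omit [Coalgebra.IsCocomm (GaloisRep.ratLocalizedAt p) H] in
theorem flceTr_apply (τ : lbGal p) (x : flPts p H) (h : H) : flceTr τ x h = τ (x h) := rfl

end Transport

end Fermat.Agent.S56
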