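/-
S56 / FLAT row 414 (helper15): `fl_borel_of_flat` - for a flat lift, the `Hom(ℓ, V/ℓ)`-component of
the cocycle is a coboundary when inertia acts trivially on `V/ℓ` and non-trivially on `ℓ`.
Application of `fl_ce` to `W₃ = ℓ ⊕ εV`, `W₂ = εV`.
-/
import Fermat.Agent.S56.Flat.CeApp

set_option autoImplicit false
set_option linter.unusedVariables false
set_option linter.unusedSectionVars false

namespace Fermat.Agent.S56

open Fermat.Agent.S55

section CeAppA

variable {p : ℕ} [Fact p.Prime] {k : Type} [Field k] [Finite k] [CharP k p]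
  {V : Type} [AddCommGroup V] [Module k V] [Module.Finite k V]

omit [Finite k] [CharP k p] [Module.Finite k V] in
/-- the coboundary of `A` is a cocycle -/
theorem flce_cobdry_mul (r : lbGal p →* Module.End k V) (A : Module.End k V) (σ τ : lbGal p) :
    flCobdry r A (σ * τ) = flCobdry r A σ + r σ * flCobdry r A τ * r σ⁻¹ := by
  have h1 : r σ * r σ⁻¹ = 1 := by rw [← map_mul, mul_inv_cancel, map_one]
  unfold flCobdry
  rw [mul_inv_rev, map_mul, map_mul, mul_sub, sub_mul]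
  have h2 : r σ * A * r σ⁻¹ - A + (r σ * (r τ * A * r τ⁻¹) * r σ⁻¹ - r σ * A * r σ⁻¹) =
      r σ * (r τ * A * r τ⁻¹) * r σ⁻¹ - A := by abel
  rw [h2]
  simp only [mul_assoc]

omit [Finite k] [CharP k p] [Module.Finite k V] in
/-- scalars have trivial coboundary -/
theorem flce_cobdry_sub_smul (r : lbGal p →* Module.End k V) (A : Module.End k V) (b : k)
    (τ : lbGal p) : flCobdry r (A - b • (1 : Module.End k V)) τ = flCobdry r A τ := by
  have h1 : r τ * r τ⁻¹ = 1 := by rw [← map_mul, mul_inv_cancel, map_one]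
  unfold flCobdry
  rw [mul_sub, sub_mul, mul_smul_comm, mul_one, smul_mul_assoc, h1]
  abel

/-- **leaf CE-APP (a).** For a flat lift, the `Hom(ℓ, V/ℓ)`-component of the cocycle is a coboundary
when inertia acts trivially on `V/ℓ` and non-trivially on `ℓ`. -/
theorem fl_borel_of_flat (hp2 : p ≠ 2) (hV : Module.finrank k V = 2)
    (r : lbGal p →* Module.End k V)
    (hdet : ∀ (τ : lbGal p) (a : ℕ), FlCyc τ a → LinearMap.det (r τ) = (a : k))
    (c : lbGal p → Module.End k V) (hc : IsFlCocycle r c)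
    (hflat : LocFlat p (flExtAct r c))
    (ℓ : Submodule k V) (hℓ : Module.finrank k ↥ℓ = 1) (hst : ∀ τ : lbGal p, ∀ v ∈ ℓ, r τ v ∈ ℓ)
    (hI : ∀ σ ∈ locInertia p, ∀ v : V, r σ v - v ∈ ℓ)
    (hram : ∃ σ ∈ locInertia p, ∃ v ∈ ℓ, r σ v ≠ v) :
    ∃ A : Module.End k V, LinearMap.trace k V A = 0 ∧
      ∀ τ : lbGal p, ∀ v ∈ ℓ, (c τ - flCobdry r A τ) v ∈ ℓ := by
  classical
  obtain ⟨H, instCR, instHopf, hfin, hflat', hco, e, hadd, heq⟩ := hflat
  have hp : p.Prime := Fact.out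
  -- `V × V` is killed by `p`
  have hpk : ((p : ℕ) : k) = 0 := CharP.cast_eq_zero k p
  have hW : ∀ w : V × V, p • w = 0 := by
    intro w
    rw [← Nat.cast_smul_eq_nsmul k p w, hpk, zero_smul]
  have hkill : ∀ x : flPts p H, x ^ p = 1 := flce_kill e hadd hW
  have hrinv : ∀ τ : lbGal p, r τ * r τ⁻¹ = 1 := fun τ => by
    rw [← map_mul, mul_inv_cancel, map_one]
  have hrinv' : ∀ τ : lbGal p, r τ⁻¹ * r τ = 1 := fun τ => by
    rw [← map_mul, inv_mul_cancel, map_one]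
  -- inertia acts on `ℓ` through the cyclotomic character
  have hline : ∀ σ ∈ locInertia p, ∀ a : ℕ, FlCyc σ a → ∀ v ∈ ℓ, r σ v = (a : k) • v := by
    intro σ hσ a ha v hv
    rw [← hdet σ a ha]
    exact flce_eq_det_smul ℓ hℓ (r σ) (hst σ) (hI σ hσ) hv
  -- cyclotomic exponents are units of `k`
  have hane : ∀ (σ : lbGal p) (a : ℕ), FlCyc σ a → (a : k) ≠ 0 := by
    intro σ a ha h0
    have h1 := congrArg LinearMap.det (hrinv σ)
    rw [map_mul, hdet σ a ha, h0, zero_mul, map_one] at h1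
    exact zero_ne_one h1
  have hlineinv : ∀ σ ∈ locInertia p, ∀ a : ℕ, FlCyc σ a → ∀ v ∈ ℓ,
      r σ⁻¹ v = (a : k)⁻¹ • v := by
    intro σ hσ a ha v hv
    have ha0 := hane σ a ha
    have h2 : r σ⁻¹ (r σ v) = v := by
      rw [← Module.End.mul_apply, hrinv', Module.End.one_apply]
    rw [hline σ hσ a ha v hv, map_smul] at h2
    calc r σ⁻¹ v = (a : k)⁻¹ • ((a : k) • r σ⁻¹ v) := by
          rw [smul_smul, inv_mul_cancel₀ ha0, one_smul]
      _ = (a : k)⁻¹ • v := by rw [h2]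
  -- the two submonoids
  let W₃ : Submonoid (flPts p H) :=
    { carrier := {x | (e x).1 ∈ ℓ}
      one_mem' := by
        show (e 1).1 ∈ ℓ
        rw [flce_e_one e hadd]; exact ℓ.zero_mem
      mul_mem' := by
        intro x y hx hy
        show (e (x * y)).1 ∈ ℓ
        rw [hadd, Prod.fst_add]
        exact ℓ.add_mem hx hy }
  let W₂ : Submonoid (flPts p H) :=
    { carrier := {x | (e x).1 = 0}
      one_mem' := by
        show (e 1).1 = 0
        rw [flce_e_one e hadd]; rfl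
      mul_mem' := by
        intro x y hx hy
        show (e (x * y)).1 = 0
        rw [hadd, Prod.fst_add, hx, hy, add_zero] }
  have h23 : W₂ ≤ W₃ := fun x hx => by
    show (e x).1 ∈ ℓ
    have : (e x).1 = 0 := hx
    rw [this]; exact ℓ.zero_mem
  have htr : ∀ (τ : lbGal p) (x y : flPts p H), (∀ h : H, y h = τ (x h)) →
      e y = (r τ (e x).1, r τ (e x).2 + c τ (r τ (e x).1)) := by
    intro τ x y hy
    rw [heq τ x y hy]
    rfl
  have hW₃ : ∀ (τ : lbGal p) (x y : flPts p H), x ∈ W₃ → (∀ h : H, y h = τ (x h)) → y ∈ W₃ := by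
    intro τ x y hx hy
    show (e y).1 ∈ ℓ
    rw [htr τ x y hy]
    exact hst τ _ hx
  have hω : ∀ σ ∈ locInertia p, ∀ a : ℕ, FlCyc σ a →
      ∀ x y : flPts p H, x ∈ W₃ → (∀ h : H, y h = σ (x h)) → ∃ w ∈ W₂, y = w * x ^ a := by
    intro σ hσ a ha x y hx hy
    have hx' : (e x).1 ∈ ℓ := hx
    refine ⟨e.symm (e y - a • e x), ?_, ?_⟩
    · show (e (e.symm _)).1 = 0
      rw [Equiv.apply_symm_apply, htr σ x y hy, Prod.fst_sub, Prod.smul_fst,
        hline σ hσ a ha _ hx', Nat.cast_smul_eq_nsmul, sub_self]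
    · apply e.injective
      rw [hadd, Equiv.apply_symm_apply, flce_e_pow e hadd, sub_add_cancel]
  -- a generator of `ℓ`
  obtain ⟨⟨v₁, hv₁ℓ⟩, hv₁ne⟩ : ∃ x : ℓ, x ≠ 0 :=
    Module.finrank_pos_iff_exists_ne_zero.mp (by rw [hℓ]; exact one_pos)
  have hv₁0 : v₁ ≠ 0 := fun h => hv₁ne (Subtype.ext h)
  have hgen : ∀ v ∈ ℓ, ∃ b : k, v = b • v₁ := by
    intro v hv
    obtain ⟨b, hb⟩ := exists_smul_eq_of_finrank_eq_one hℓ hv₁ne ⟨v, hv⟩
    exact ⟨b, (congrArg Subtype.val hb).symm⟩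
  -- a lift `(v₁, w₁)` on which inertia acts through the cyclotomic character exactly
  have hx : e.symm (v₁, 0) ∈ W₃ := by
    show (e (e.symm (v₁, 0))).1 ∈ ℓ
    rw [Equiv.apply_symm_apply]; exact hv₁ℓ
  obtain ⟨m, hm, ⟨w, hw, hxwm⟩, hmω⟩ := fl_ce p hp2 H hkill W₂ W₃ h23 hW₃ hω _ hx
  have hm1 : (e m).1 = v₁ := by
    have h1 := congrArg e hxwm
    rw [Equiv.apply_symm_apply, hadd] at h1
    have h2 := congrArg Prod.fst h1
    simp only [Prod.fst_add] at h2
    have hw0 : (e w).1 = 0 := hw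
    rw [hw0, zero_add] at h2
    exact h2.symm
  set w₁ : V := (e m).2 with hw₁
  have hE1 : ∀ σ ∈ locInertia p, ∀ a : ℕ, FlCyc σ a →
      r σ w₁ + (a : k) • c σ v₁ = (a : k) • w₁ := by
    intro σ hσ a ha
    have h1 := hmω σ hσ a ha (flceTr σ m) (fun h => rfl)
    have h2 := htr σ m (flceTr σ m) (fun h => rfl)
    rw [h1, flce_e_pow e hadd] at h2
    have h3 := congrArg Prod.snd h2
    simp only [Prod.smul_snd] at h3
    rw [hm1, hline σ hσ a ha v₁ hv₁ℓ, map_smul, ← Nat.cast_smul_eq_nsmul k] at h3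
    exact h3.symm
  -- the endomorphism `A`
  obtain ⟨f, hf⟩ := Module.Projective.exists_dual_ne_zero k hv₁0
  let φ : Module.Dual k V := (f v₁)⁻¹ • f
  have hφ : φ v₁ = 1 := by
    show ((f v₁)⁻¹ • f) v₁ = 1
    rw [LinearMap.smul_apply, smul_eq_mul, inv_mul_cancel₀ hf]
  let A₀ : Module.End k V := -(φ.smulRight w₁)
  have hA₀ : ∀ v : V, A₀ v = -(φ v • w₁) := fun v => rfl
  have h2k : (2 : k) ≠ 0 := by
    intro h2
    have h3 : ((2 : ℕ) : k) = 0 := by exact_mod_cast h2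
    have h4 := (CharP.cast_eq_zero_iff k p 2).mp h3
    have h5 := Nat.le_of_dvd (by norm_num) h4
    have h6 := hp.two_le
    omega
  let A : Module.End k V := A₀ - (LinearMap.trace k V A₀ / 2) • (1 : Module.End k V)
  have hAtr : LinearMap.trace k V A = 0 := by
    show LinearMap.trace k V (A₀ - (LinearMap.trace k V A₀ / 2) • (1 : Module.End k V)) = 0
    rw [map_sub, map_smul, LinearMap.trace_one, hV, smul_eq_mul]
    push_cast
    field_simp
    ring
  have hAc : ∀ τ, flCobdry r A τ = flCobdry r A₀ τ := fun τ => flce_cobdry_sub_smul r A₀ _ τ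
  refine ⟨A, hAtr, ?_⟩
  -- the modified cocycle
  set g : lbGal p → Module.End k V := fun τ => c τ - flCobdry r A τ with hg
  have hgmul : ∀ σ τ : lbGal p, g (σ * τ) = g σ + r σ * g τ * r σ⁻¹ := by
    intro σ τ
    simp only [hg]
    rw [hc σ τ, flce_cobdry_mul, mul_sub, sub_mul]
    abel
  -- (i) `g σ` kills `ℓ` for `σ` in inertia
  have hgI : ∀ σ ∈ locInertia p, ∀ v ∈ ℓ, g σ v = 0 := by
    intro σ hσ v hv
    obtain ⟨a, ha⟩ := flce_exists_flCyc σ
    have ha0 := hane σ a ha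
    obtain ⟨b, rfl⟩ := hgen v hv
    rw [map_smul]
    have h1 : g σ v₁ = 0 := by
      simp only [hg]
      rw [LinearMap.sub_apply, hAc]
      -- `c σ v₁ = w₁ - a⁻¹ • r σ w₁`
      have hc1 : c σ v₁ = w₁ - (a : k)⁻¹ • r σ w₁ := by
        have h2 := hE1 σ hσ a ha
        have h3 : (a : k) • c σ v₁ = (a : k) • w₁ - r σ w₁ := by
          rw [← h2]; abel
        have h4 : c σ v₁ = (a : k)⁻¹ • ((a : k) • c σ v₁) := by
          rw [smul_smul, inv_mul_cancel₀ ha0, one_smul]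
        rw [h4, h3, smul_sub, smul_smul, inv_mul_cancel₀ ha0, one_smul]
      -- `r σ⁻¹ v₁ = a⁻¹ • v₁`
      have hinv : r σ⁻¹ v₁ = (a : k)⁻¹ • v₁ := hlineinv σ hσ a ha v₁ hv₁ℓ
      have hcb : flCobdry r A₀ σ v₁ = w₁ - (a : k)⁻¹ • r σ w₁ := by
        show (r σ * A₀ * r σ⁻¹ - A₀) v₁ = _
        rw [LinearMap.sub_apply, Module.End.mul_apply, Module.End.mul_apply, hinv, hA₀, hA₀,
          map_smul, hφ, smul_eq_mul, mul_one, one_smul, map_neg, map_smul]
        abel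
      rw [hc1, hcb, sub_self]
    rw [h1, smul_zero]
  -- an inertia element with nontrivial cyclotomic exponent in `k`
  obtain ⟨σ₀, hσ₀, v₀, hv₀ℓ, hv₀⟩ := hram
  obtain ⟨a₀, ha₀⟩ := flce_exists_flCyc σ₀
  have ha₀1 : (a₀ : k) ≠ 1 := by
    intro h1
    apply hv₀
    rw [hline σ₀ hσ₀ a₀ ha₀ v₀ hv₀ℓ, h1, one_smul]
  -- (ii) `g τ` preserves `ℓ`
  intro τ v hv
  set u : V := g τ v with hu
  have hσ' : τ⁻¹ * σ₀ * τ ∈ locInertia p := by
    have := (locInertia_normal p).conj_mem σ₀ hσ₀ τ⁻¹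
    rwa [inv_inv] at this
  have hcomm : σ₀ * τ = τ * (τ⁻¹ * σ₀ * τ) := by group
  have ha₀0 := hane σ₀ a₀ ha₀
  -- evaluate `g (σ₀ τ) v` in two ways
  have hinv : r σ₀⁻¹ v = (a₀ : k)⁻¹ • v := hlineinv σ₀ hσ₀ a₀ ha₀ v hv
  have h1 : g (σ₀ * τ) v = (a₀ : k)⁻¹ • r σ₀ u := by
    rw [hgmul, LinearMap.add_apply, hgI σ₀ hσ₀ v hv, zero_add, Module.End.mul_apply,
      Module.End.mul_apply, hinv, map_smul, map_smul]
  have h2 : g (σ₀ * τ) v = u := by
    rw [hcomm, hgmul, LinearMap.add_apply, Module.End.mul_apply, Module.End.mul_apply,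
      hgI _ hσ' _ (hst τ⁻¹ v hv), map_zero, add_zero]
  have h3 : r σ₀ u = (a₀ : k) • u := by
    have h4 : (a₀ : k)⁻¹ • r σ₀ u = u := h1.symm.trans h2
    rw [← h4, smul_smul, mul_inv_cancel₀ ha₀0, one_smul, h4]
  have h5 : ((a₀ : k) - 1) • u ∈ ℓ := by
    have := hI σ₀ hσ₀ u
    rw [h3] at this
    rwa [sub_smul, one_smul]
  have h6 : u = ((a₀ : k) - 1)⁻¹ • (((a₀ : k) - 1) • u) := by
    rw [smul_smul, inv_mul_cancel₀ (sub_ne_zero.mpr ha₀1), one_smul]
  rw [h6]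
  exact ℓ.smul_mem _ h5

end CeAppA

end Fermat.Agent.S56
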