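/-
S56 / FLAT row 415 (helper15): `fl_complement_of_flat` - if a flat lift exists, a stable line with
trivial inertia action whose quotient is ramified has a stable complement (the `ω`-eigenspace of
inertia).  Application of `fl_ce` to `W₃ = εV`, `W₂ = εℓ₁`.
-/
import Fermat.Agent.S56.Flat.CeApp

set_option autoImplicit false
set_option linter.unusedVariables false
set_option linter.unusedSectionVars false

namespace Fermat.Agent.S56

open Fermat.Agent.S55

section CeAppB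

variable {p : ℕ} [Fact p.Prime] {k : Type} [Field k] [Finite k] [CharP k p]
  {V : Type} [AddCommGroup V] [Module k V] [Module.Finite k V]

/-- **leaf CE-APP (b).** If a flat lift exists, a stable line with trivial inertia action whose
quotient is ramified has a stable complement, namely the `ω`-eigenspace of inertia
(`fl_ce` for `W₃ = εV`, `W₂ = εℓ₁`). -/
theorem fl_complement_of_flat (hp2 : p ≠ 2) (hV : Module.finrank k V = 2)
    (r : lbGal p →* Module.End k V)
    (hdet : ∀ (τ : lbGal p) (a : ℕ), FlCyc τ a → LinearMap.det (r τ) = (a : k))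
    (c : lbGal p → Module.End k V) (hc : IsFlCocycle r c)
    (hflat : LocFlat p (flExtAct r c))
    (ℓ₁ : Submodule k V) (hℓ₁ : Module.finrank k ↥ℓ₁ = 1)
    (hst : ∀ τ : lbGal p, ∀ v ∈ ℓ₁, r τ v ∈ ℓ₁)
    (hI : ∀ σ ∈ locInertia p, ∀ v ∈ ℓ₁, r σ v = v)
    (hram : ∃ σ ∈ locInertia p, ∃ v : V, r σ v - v ∉ ℓ₁) :
    ∃ ℓ' : Submodule k V, Module.finrank k ↥ℓ' = 1 ∧ (∀ τ : lbGal p, ∀ v ∈ ℓ', r τ v ∈ ℓ') ∧
      ℓ₁ ⊓ ℓ' = ⊥ := by
  classical
  obtain ⟨H, instCR, instHopf, hfin, hflat', hco, e, hadd, heq⟩ := hflat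
  -- `V × V` is killed by `p`
  have hpk : ((p : ℕ) : k) = 0 := CharP.cast_eq_zero k p
  have hW : ∀ w : V × V, p • w = 0 := by
    intro w
    rw [← Nat.cast_smul_eq_nsmul k p w, hpk, zero_smul]
  have hkill : ∀ x : flPts p H, x ^ p = 1 := flce_kill e hadd hW
  -- inertia acts on `V / ℓ₁` through the cyclotomic character
  have hquot : ∀ σ ∈ locInertia p, ∀ a : ℕ, FlCyc σ a → ∀ w : V, r σ w - (a : k) • w ∈ ℓ₁ := by
    intro σ hσ a ha w
    rw [← hdet σ a ha]
    exact flce_sub_det_smul_mem hV ℓ₁ hℓ₁ (r σ) (hI σ hσ) w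
  -- the two submonoids
  let W₃ : Submonoid (flPts p H) :=
    { carrier := {x | (e x).1 = 0}
      one_mem' := by
        show (e 1).1 = 0
        rw [flce_e_one e hadd]; rfl
      mul_mem' := by
        intro x y hx hy
        show (e (x * y)).1 = 0
        rw [hadd, Prod.fst_add, hx, hy, add_zero] }
  let W₂ : Submonoid (flPts p H) :=
    { carrier := {x | (e x).1 = 0 ∧ (e x).2 ∈ ℓ₁}
      one_mem' := by
        show (e 1).1 = 0 ∧ (e 1).2 ∈ ℓ₁
        rw [flce_e_one e hadd]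
        exact ⟨rfl, ℓ₁.zero_mem⟩
      mul_mem' := by
        intro x y hx hy
        show (e (x * y)).1 = 0 ∧ (e (x * y)).2 ∈ ℓ₁
        rw [hadd, Prod.fst_add, Prod.snd_add, hx.1, hy.1, add_zero]
        exact ⟨rfl, ℓ₁.add_mem hx.2 hy.2⟩ }
  have h23 : W₂ ≤ W₃ := fun x hx => hx.1
  -- the translate of a point of `W₃`
  have htr : ∀ (τ : lbGal p) (x y : flPts p H), (e x).1 = 0 → (∀ h : H, y h = τ (x h)) →
      e y = (0, r τ (e x).2) := by
    intro τ x y hx hy
    rw [heq τ x y hy]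
    show (r τ (e x).1, r τ (e x).2 + c τ (r τ (e x).1)) = _
    rw [hx, map_zero, map_zero, add_zero]
  have hW₃ : ∀ (τ : lbGal p) (x y : flPts p H), x ∈ W₃ → (∀ h : H, y h = τ (x h)) → y ∈ W₃ := by
    intro τ x y hx hy
    show (e y).1 = 0
    rw [htr τ x y hx hy]
  have hω : ∀ σ ∈ locInertia p, ∀ a : ℕ, FlCyc σ a →
      ∀ x y : flPts p H, x ∈ W₃ → (∀ h : H, y h = σ (x h)) → ∃ w ∈ W₂, y = w * x ^ a := by
    intro σ hσ a ha x y hx hy
    have hx0 : (e x).1 = 0 := hx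
    refine ⟨e.symm (0, r σ (e x).2 - (a : k) • (e x).2), ?_, ?_⟩
    · show (e (e.symm _)).1 = 0 ∧ (e (e.symm _)).2 ∈ ℓ₁
      rw [Equiv.apply_symm_apply]
      exact ⟨rfl, hquot σ hσ a ha _⟩
    · apply e.injective
      rw [hadd, Equiv.apply_symm_apply, flce_e_pow e hadd, htr σ x y hx hy]
      ext
      · simp [hx0]
      · simp [Nat.cast_smul_eq_nsmul]
  -- the `ω`-eigenspace of inertia
  let ℓ' : Submodule k V :=
    { carrier := {u | ∀ σ ∈ locInertia p, ∀ a : ℕ, FlCyc σ a → r σ u = (a : k) • u}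
      add_mem' := by
        intro u u' hu hu' σ hσ a ha
        rw [map_add, hu σ hσ a ha, hu' σ hσ a ha, smul_add]
      zero_mem' := by
        intro σ hσ a ha
        rw [map_zero, smul_zero]
      smul_mem' := by
        intro b u hu σ hσ a ha
        rw [map_smul, hu σ hσ a ha, smul_comm] }
  -- every vector is in `ℓ₁ + ℓ'`
  have hsum : ∀ v : V, ∃ u ∈ ℓ', v - u ∈ ℓ₁ := by
    intro v
    have hx : e.symm (0, v) ∈ W₃ := by
      show (e (e.symm (0, v))).1 = 0
      rw [Equiv.apply_symm_apply]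
    obtain ⟨m, hm, ⟨w, hw, hxwm⟩, hmω⟩ := fl_ce p hp2 H hkill W₂ W₃ h23 hW₃ hω _ hx
    have hm0 : (e m).1 = 0 := hm
    refine ⟨(e m).2, ?_, ?_⟩
    · intro σ hσ a ha
      have h1 := hmω σ hσ a ha (flceTr σ m) (fun h => rfl)
      have h2 := htr σ m (flceTr σ m) hm0 (fun h => rfl)
      rw [h1, flce_e_pow e hadd] at h2
      have h3 := congrArg Prod.snd h2
      simp only [Prod.smul_snd] at h3
      rw [← h3, Nat.cast_smul_eq_nsmul]
    · have h1 := congrArg e hxwm
      rw [Equiv.apply_symm_apply, hadd] at h1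
      have h2 := congrArg Prod.snd h1
      simp only [Prod.snd_add] at h2
      rw [h2, add_sub_cancel_right]
      exact hw.2
  -- an inertia element with nontrivial cyclotomic exponent in `k`
  obtain ⟨σ₀, hσ₀, v₀, hv₀⟩ := hram
  obtain ⟨a₀, ha₀⟩ := flce_exists_flCyc σ₀
  have ha₀1 : (a₀ : k) ≠ 1 := by
    intro h1
    apply hv₀
    have := hquot σ₀ hσ₀ a₀ ha₀ v₀
    rwa [h1, one_smul] at this
  have hinf : ℓ₁ ⊓ ℓ' = ⊥ := by
    rw [eq_bot_iff]
    rintro v ⟨hv1, hv2⟩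
    have h1 : r σ₀ v = v := hI σ₀ hσ₀ v hv1
    have h2 : r σ₀ v = (a₀ : k) • v := hv2 σ₀ hσ₀ a₀ ha₀
    have h3 : ((a₀ : k) - 1) • v = 0 := by
      rw [sub_smul, one_smul, ← h2, h1, sub_self]
    rcases smul_eq_zero.mp h3 with h4 | h4
    · exact absurd (sub_eq_zero.mp h4) ha₀1
    · exact h4
  have hsup : ℓ₁ ⊔ ℓ' = ⊤ := by
    rw [eq_top_iff]
    intro v _
    obtain ⟨u, hu, hvu⟩ := hsum v
    have : v = (v - u) + u := by abel
    rw [this]
    exact Submodule.add_mem_sup hvu hu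
  refine ⟨ℓ', ?_, ?_, hinf⟩
  · have h1 := Submodule.finrank_sup_add_finrank_inf_eq ℓ₁ ℓ'
    rw [hsup, hinf, finrank_top, hV, finrank_bot, hℓ₁] at h1
    omega
  · intro τ u hu σ hσ a ha
    have h1 : τ⁻¹ * σ * τ ∈ locInertia p := by
      have := (locInertia_normal p).conj_mem σ hσ τ⁻¹
      rwa [inv_inv] at this
    have h2 := hu (τ⁻¹ * σ * τ) h1 a (flce_flCyc_conj ha τ)
    have h3 : r σ (r τ u) = r τ (r (τ⁻¹ * σ * τ) u) := by
      rw [← Module.End.mul_apply, ← Module.End.mul_apply, ← map_mul, ← map_mul]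
      congr 2
      group
    rw [h3, h2, map_smul]

end CeAppB

end Fermat.Agent.S56
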