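/-
S56 / FLAT, leaf TENSOR (row 410, helper16): `fl_good_sup` VERBATIM from Flat/Spec.lean
(helper25 b762655).  `H₃ := H₁ ⊗ H₂`; a point of `H₃` is determined by its restrictions along the
bialgebra homs `h ↦ h ⊗ 1`, `h ↦ 1 ⊗ h`, and restriction is multiplicative for convolution.
-/
import Fermat.Agent.S56.Flat.Defs
import Fermat.Agent.S56.Hopf.Input

set_option autoImplicit false
set_option linter.unusedVariables false
set_option linter.unusedSectionVars false

noncomputable section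

namespace Fermat.Agent.S56

open Fermat.Agent.S55 Polynomial TensorProduct

section TensorAux

variable {R : Type*} [CommRing R] {A B : Type*} [CommRing A] [CommRing B]
  [Bialgebra R A] [Bialgebra R B] {Ω : Type*} [CommRing Ω] [Algebra R Ω]

/-- `a ↦ a ⊗ 1` as a bialgebra hom. -/
def fltInl : A →ₐc[R] A ⊗[R] B :=
  (Bialgebra.TensorProduct.map (BialgHom.id R A) (Bialgebra.unitBialgHom R B)).comp
    (Bialgebra.TensorProduct.rid R R A).symm.toBialgHom

/-- `b ↦ 1 ⊗ b` as a bialgebra hom. -/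
def fltInr : B →ₐc[R] A ⊗[R] B :=
  (Bialgebra.TensorProduct.map (Bialgebra.unitBialgHom R A) (BialgHom.id R B)).comp
    (Bialgebra.TensorProduct.lid R B).symm.toBialgHom

theorem fltInl_apply (a : A) : (fltInl : A →ₐc[R] A ⊗[R] B) a = a ⊗ₜ 1 := by
  simp [fltInl]

theorem fltInr_apply (b : B) : (fltInr : B →ₐc[R] A ⊗[R] B) b = 1 ⊗ₜ b := by
  simp [fltInr]

/-- restriction of points along a bialgebra hom is a monoid hom. -/
def fltRes {C : Type*} [CommRing C] [Bialgebra R C] (h : C →ₐc[R] A) :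
    WithConv (A →ₐ[R] Ω) →* WithConv (C →ₐ[R] Ω) where
  toFun f := WithConv.toConv (f.ofConv.comp (h : C →ₐ[R] A))
  map_one' := by
    apply WithConv.ofConv_injective
    apply AlgHom.ext
    intro c
    change (1 : WithConv (A →ₐ[R] Ω)) (h c) = (1 : WithConv (C →ₐ[R] Ω)) c
    rw [AlgHom.convOne_apply, AlgHom.convOne_apply]
    congr 1
    exact CoalgHomClass.counit_comp_apply h c
  map_mul' f g := by
    apply WithConv.ofConv_injective
    exact AlgHom.convMul_comp_bialgHom_distrib f g h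

theorem fltRes_apply {C : Type*} [CommRing C] [Bialgebra R C] (h : C →ₐc[R] A)
    (f : WithConv (A →ₐ[R] Ω)) (c : C) : (fltRes h f).ofConv c = f.ofConv (h c) := rfl

theorem flt_kill (n : ℕ) (hA : ∀ x : WithConv (A →ₐ[R] Ω), x ^ n = 1)
    (hB : ∀ x : WithConv (B →ₐ[R] Ω), x ^ n = 1) (F : WithConv (A ⊗[R] B →ₐ[R] Ω)) :
    F ^ n = 1 := by
  have hinj : ∀ F G : WithConv (A ⊗[R] B →ₐ[R] Ω),
      fltRes fltInl F = fltRes fltInl G → fltRes fltInr F = fltRes fltInr G → F = G := by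
    intro F G h1 h2
    apply WithConv.ofConv_injective
    apply Algebra.TensorProduct.ext'
    intro a b
    have e1 : F.ofConv (a ⊗ₜ 1) = G.ofConv (a ⊗ₜ 1) := by
      have := congrArg (fun f => f.ofConv a) h1
      simpa [fltRes_apply, fltInl_apply] using this
    have e2 : F.ofConv (1 ⊗ₜ b) = G.ofConv (1 ⊗ₜ b) := by
      have := congrArg (fun f => f.ofConv b) h2
      simpa [fltRes_apply, fltInr_apply] using this
    have hab : (a ⊗ₜ[R] b : A ⊗[R] B) = (a ⊗ₜ 1) * (1 ⊗ₜ b) := by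
      rw [Algebra.TensorProduct.tmul_mul_tmul, mul_one, one_mul]
    rw [hab, map_mul, map_mul, e1, e2]
  apply hinj
  · rw [map_pow, map_one, hA]
  · rw [map_pow, map_one, hB]

end TensorAux

section Tensor

variable (p : ℕ) [Fact p.Prime]

/-- **leaf TENSOR.** -/
theorem fl_good_sup (L₁ L₂ : IntermediateField ℚ_[p] (PadicAlgCl p))
    (h₁ : FlGood p L₁) (h₂ : FlGood p L₂) :
    ∃ L₃ : IntermediateField ℚ_[p] (PadicAlgCl p), FlGood p L₃ ∧ L₁ ≤ L₃ ∧ L₂ ≤ L₃ := by
  obtain ⟨H₁, i₁, j₁, hfin₁, hflat₁, hco₁, hk₁, rfl⟩ := h₁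
  obtain ⟨H₂, i₂, j₂, hfin₂, hflat₂, hco₂, hk₂, rfl⟩ := h₂
  refine ⟨hpfSplitField p (GaloisRep.ratLocalizedAt p) (H₁ ⊗[GaloisRep.ratLocalizedAt p] H₂)
    (PadicAlgCl p), ⟨H₁ ⊗[GaloisRep.ratLocalizedAt p] H₂, inferInstance, inferInstance,
    inferInstance, inferInstance, inferInstance, ?_, rfl⟩, ?_, ?_⟩
  · exact fun x => flt_kill p hk₁ hk₂ x
  · apply IntermediateField.adjoin_le_iff.mpr
    rintro _ ⟨x, h, rfl⟩
    have := hpf_point_mem_splitField p (GaloisRep.ratLocalizedAt p)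
      (H₁ ⊗[GaloisRep.ratLocalizedAt p] H₂) (PadicAlgCl p)
      (Algebra.TensorProduct.lift x ((Algebra.ofId _ _).comp
        (Bialgebra.counitAlgHom (GaloisRep.ratLocalizedAt p) H₂)) (fun _ _ => Commute.all _ _))
      (h ⊗ₜ 1)
    simpa using this
  · apply IntermediateField.adjoin_le_iff.mpr
    rintro _ ⟨x, h, rfl⟩
    have := hpf_point_mem_splitField p (GaloisRep.ratLocalizedAt p)
      (H₁ ⊗[GaloisRep.ratLocalizedAt p] H₂) (PadicAlgCl p)
      (Algebra.TensorProduct.lift ((Algebra.ofId _ _).comp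
        (Bialgebra.counitAlgHom (GaloisRep.ratLocalizedAt p) H₁)) x (fun _ _ => Commute.all _ _))
      (1 ⊗ₜ h)
    simpa using this

end Tensor

end Fermat.Agent.S56
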