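/-
S56 / FLAT package (helper25): THE SPEC (v2).  All leaves are now PROVED (this file is a stub-free import hub).

GOAL (`fl_main`): for the restriction `r` of `ρ̄` to `Γ = Gal(ℚ̄_p/ℚ_p)` there is a group `Z` of smooth
trace-zero `1`-cocycles `Γ → End V` containing the coboundaries and ALL cocycles of FLAT lifts to
`k[ε]`, with `#Z ≤ #k ^ 4`  (equivalently `#(Z/B¹) ≤ #k · #H⁰(Γ, ad⁰)`: the local condition at `p` of the
Wiles-Greenberg count).

ROUTE.  flat lift `c` ⟹ `W_c = V ⊕ εV` is the group of `ℚ̄_p`-points of a finite flat Hopf algebra `H_c`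
over `ℤ_(p)` killed by `p` ⟹ the field `L_c` generated by the points is `FlGood`: finite Galois and
(HOPF `hpf_top_prelude`, DONE) `FlBounded`; good fields are directed [TENSOR: `H₁ ⊗ H₂`] ⟹ [RAM
`rm_top`] Kummer generators of `L` over tame subfields have level `≥ e` ⟹ [KUM] `Gal(L/ℚ_p)` carries
a `TameKummerData` ⟹ [CNT, pure algebra] at most `#k ^ 4` trace-zero cocycles of `Gal(L/ℚ_p)`
satisfying the Borel condition.  For `p = 3` and `r` reducible the ramification bound is not enough:
[CE] (multiplicative part of a finite flat group scheme, helper15) gives the Borel condition and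
the complements [CE-APP].

IMPORTED black boxes: HOPF `hpf_top_prelude`, `hpfSplitField_finiteDimensional/_isGalois` (helper16);
LOC `loc_exists_inertia_lift` (S4, helper22); RAM `rm_top` (helper24).
-/
import Fermat.Agent.S56.Flat.Defs
import Fermat.Agent.S56.Flat.TameDefs
import Fermat.Agent.S56.Flat.Ce
import Fermat.Agent.S56.Flat.CeAppA
import Fermat.Agent.S56.Flat.CeAppB
import Fermat.Agent.S56.Flat.Bridge
import Fermat.Agent.S56.Flat.Tensor
import Fermat.Agent.S56.Flat.Kum.Main
import Fermat.Agent.S56.Flat.Cnt.Main

set_option autoImplicit false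
set_option linter.unusedVariables false
set_option linter.unusedSectionVars false

noncomputable section

namespace Fermat.Agent.S56

open Fermat.Agent.S55 Polynomial

/-! ## BRIDGE `fl_locFlat_of_global`: PROVED in `Flat/Bridge.lean` (helper16).
## TENSOR `fl_good_sup`: PROVED in `Flat/Tensor.lean` (helper16). -/

/-! ## KUM: the structure of `Gal(L/ℚ_p)` for bounded `L` (local fields; uses RAM `rm_top`) -/

-- `fl_exists_tameKummerData` is PROVED in `Flat/Kum/Main.lean` (helper29, row 411).

/-! ## CNT: the count (pure algebra on top of `TameKummerData`) -/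

-- `fl_count` is PROVED in `Flat/Cnt/Main.lean` (helper2 + helper10 et al., row 412).

/-! ## CE: the multiplicative part (the only place where more than the ramification bound is used):
`fl_ce` is PROVED in `Flat/Ce.lean` (helper15, on top of `Ce/*.lean`). -/

/-! ## CE-APP `fl_borel_of_flat`, `fl_complement_of_flat`: PROVED in `Flat/CeAppA.lean`, `Flat/CeAppB.lean`
(helper15). -/

/-! ## MAIN: `fl_main` is PROVED from the leaves above in `Flat/Main.lean` (helper25). -/

end Fermat.Agent.S56
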