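/-
S56 / FLAT package (helper25): assembly of `fl_main`, part 1 (local lemmas).
-/
import Fermat.Agent.S56.Flat.Spec
import Fermat.Agent.S56.Flat.MainAux
import Fermat.Agent.S56.Loc.Lift

set_option autoImplicit false
set_option linter.unusedVariables false
set_option linter.unusedSectionVars false

noncomputable section

namespace Fermat.Agent.S56

open Fermat.Agent.S55 Polynomial

/-! ### roots of unity -/

section Cyc

variable (p : ℕ) [Fact p.Prime]

theorem flm_exists_primitiveRoot : ∃ ζ : PadicAlgCl p, IsPrimitiveRoot ζ p := by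
  haveI : NeZero ((p : ℕ) : PadicAlgCl p) := ⟨by
    have hp : (p : ℕ) ≠ 0 := (Fact.out : p.Prime).ne_zero
    exact_mod_cast hp⟩
  exact HasEnoughRootsOfUnity.exists_primitiveRoot (PadicAlgCl p) p

variable {p}

theorem flm_flCyc_of_root {ζ : PadicAlgCl p} (hζ : IsPrimitiveRoot ζ p) (τ : lbGal p) (a : ℕ)
    (h : τ ζ = ζ ^ a) : FlCyc τ a := by
  intro μ hμ
  have hp : 0 < p := (Fact.out : p.Prime).pos
  haveI : NeZero p := ⟨hp.ne'⟩
  obtain ⟨i, -, rfl⟩ := hζ.eq_pow_of_pow_eq_one hμ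
  rw [map_pow, h, ← pow_mul, ← pow_mul, mul_comm]

theorem flm_exists_flCyc (τ : lbGal p) : ∃ a : ℕ, FlCyc τ a := by
  obtain ⟨ζ, hζ⟩ := flm_exists_primitiveRoot p
  have hp : 0 < p := (Fact.out : p.Prime).pos
  haveI : NeZero p := ⟨hp.ne'⟩
  have h1 : (τ ζ) ^ p = 1 := by rw [← map_pow, hζ.pow_eq_one, map_one]
  obtain ⟨a, -, ha⟩ := hζ.eq_pow_of_pow_eq_one h1
  exact ⟨a, flm_flCyc_of_root hζ τ a ha.symm⟩

end Cyc

section Step1

variable {p : ℕ} [Fact p.Prime] {k : Type} [Field k] [CharP k p]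
  {V : Type} [AddCommGroup V] [Module k V]

theorem flm_nsmul_eq_zero (k : Type) [Field k] [CharP k p] {V : Type} [AddCommGroup V] [Module k V]
    (w : V × V) : p • w = 0 := by
  rw [← Nat.cast_smul_eq_nsmul k p w, CharP.cast_eq_zero k p, zero_smul]

/-- a flat lift lives over a good field -/
theorem flm_good_of_flat (r : lbGal p →* Module.End k V) (c : lbGal p → Module.End k V)
    (hflat : LocFlat p (flExtAct r c)) :
    ∃ L : IntermediateField ℚ_[p] (PadicAlgCl p), FlGood p L ∧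
      ∀ τ ∈ L.fixingSubgroup, r τ = 1 ∧ c τ = 0 := by
  obtain ⟨H, _, _, hfin, hfl, hco, e, hadd, heq⟩ := hflat
  have he1 : e 1 = 0 := by
    have h := hadd 1 1
    rw [one_mul] at h
    have h2 : e 1 + 0 = e 1 + e 1 := by rw [add_zero]; exact h
    exact (add_left_cancel h2).symm
  have hpow : ∀ (x : flPts p H) (n : ℕ), e (x ^ n) = n • e x := by
    intro x n
    induction n with
    | zero => rw [pow_zero, zero_smul]; exact he1
    | succ n ih => rw [pow_succ, hadd, ih, succ_nsmul]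
  have hkill : ∀ x : flPts p H, x ^ p = 1 := fun x =>
    e.injective (by rw [hpow, flm_nsmul_eq_zero k, he1])
  refine ⟨hpfSplitField p (GaloisRep.ratLocalizedAt p) H (PadicAlgCl p),
    ⟨H, _, _, hfin, hfl, hco, hkill, rfl⟩, ?_⟩
  intro τ hτ
  have hfix : ∀ w : V × V, flExtAct r c τ w = w := by
    intro w
    obtain ⟨f, rfl⟩ := e.surjective w
    have h := heq τ f f (fun h => ?_)
    · exact h.symm
    · have hmem : f h ∈ hpfSplitField p (GaloisRep.ratLocalizedAt p) H (PadicAlgCl p) :=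
        hpf_point_mem_splitField p (GaloisRep.ratLocalizedAt p) H (PadicAlgCl p) f.ofConv h
      exact ((IntermediateField.mem_fixingSubgroup_iff _ _).1 hτ _ hmem).symm
  have hr : ∀ v : V, r τ v = v := fun v => congrArg Prod.fst (hfix (v, 0))
  constructor
  · ext v
    exact hr v
  · ext v
    have h2 := congrArg Prod.snd (hfix (v, 0))
    simp only [flExtAct, map_zero, zero_add] at h2
    rw [hr v] at h2
    exact h2

end Step1

section Step2

variable {p : ℕ} [Fact p.Prime] {k : Type} [Field k]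
  {V : Type} [AddCommGroup V] [Module k V]

/-- the Borel condition: for every stable line `ℓ` with inertia acting trivially on `V/ℓ`, the
`Hom(ℓ, V/ℓ)`-component of `c` is a coboundary -/
def FlBorelCond (r : lbGal p →* Module.End k V) (c : lbGal p → Module.End k V) : Prop :=
  ∀ ℓ : Submodule k V, Module.finrank k ↥ℓ = 1 → (∀ τ : lbGal p, ∀ v ∈ ℓ, r τ v ∈ ℓ) →
    (∀ σ ∈ locInertia p, ∀ v : V, r σ v - v ∈ ℓ) →
    ∃ A : Module.End k V, LinearMap.trace k V A = 0 ∧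
      ∀ τ : lbGal p, ∀ v ∈ ℓ, (c τ - flCobdry r A τ) v ∈ ℓ

theorem flCobdry_zero (r : lbGal p →* Module.End k V) : flCobdry r 0 = 0 := by
  funext τ
  simp [flCobdry]

theorem flCobdry_add (r : lbGal p →* Module.End k V) (A B : Module.End k V) :
    flCobdry r (A + B) = flCobdry r A + flCobdry r B := by
  funext τ
  simp only [flCobdry, Pi.add_apply, mul_add, add_mul]
  abel

theorem flCobdry_neg (r : lbGal p →* Module.End k V) (A : Module.End k V) :
    flCobdry r (-A) = -flCobdry r A := by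
  funext τ
  simp only [flCobdry, Pi.neg_apply, mul_neg, neg_mul]
  abel

theorem flm_r_mul_inv (r : lbGal p →* Module.End k V) (τ : lbGal p) : r τ * r τ⁻¹ = 1 := by
  rw [← map_mul, mul_inv_cancel, map_one]

theorem flm_r_inv_mul (r : lbGal p →* Module.End k V) (τ : lbGal p) : r τ⁻¹ * r τ = 1 := by
  rw [← map_mul, inv_mul_cancel, map_one]

theorem flCobdry_isFlCocycle (r : lbGal p →* Module.End k V) (A : Module.End k V) :
    IsFlCocycle r (flCobdry r A) := by
  intro σ τ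
  simp only [flCobdry, map_mul, mul_inv_rev, mul_sub, sub_mul, mul_assoc]
  abel

theorem flCobdry_trace [Module.Finite k V] (r : lbGal p →* Module.End k V) (A : Module.End k V)
    (τ : lbGal p) : LinearMap.trace k V (flCobdry r A τ) = 0 := by
  simp only [flCobdry, map_sub]
  rw [LinearMap.trace_mul_comm, ← mul_assoc, flm_r_inv_mul, one_mul, sub_self]

/-- the group of trace-zero cocycles vanishing on `Gal(ℚ̄_p/L)` and satisfying the Borel condition -/
def flZ (r : lbGal p →* Module.End k V) (L : IntermediateField ℚ_[p] (PadicAlgCl p)) :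
    AddSubgroup (lbGal p → Module.End k V) where
  carrier := {c | IsFlCocycle r c ∧ (∀ τ, LinearMap.trace k V (c τ) = 0) ∧
    (∀ τ ∈ L.fixingSubgroup, c τ = 0) ∧ FlBorelCond r c}
  zero_mem' := by
    refine ⟨fun σ τ => by simp, fun τ => by simp, fun τ _ => rfl, fun ℓ _ _ _ => ⟨0, by simp, ?_⟩⟩
    intro τ v hv
    rw [flCobdry_zero]
    simp
  add_mem' := by
    rintro c c' ⟨h1, h2, h3, h4⟩ ⟨h1', h2', h3', h4'⟩
    refine ⟨fun σ τ => ?_, fun τ => ?_, fun τ hτ => ?_, fun ℓ hℓ hst hI => ?_⟩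
    · simp only [Pi.add_apply, h1 σ τ, h1' σ τ, mul_add, add_mul]
      abel
    · simp only [Pi.add_apply, map_add, h2 τ, h2' τ, add_zero]
    · simp only [Pi.add_apply, h3 τ hτ, h3' τ hτ, add_zero]
    · obtain ⟨A, hA, hA'⟩ := h4 ℓ hℓ hst hI
      obtain ⟨B, hB, hB'⟩ := h4' ℓ hℓ hst hI
      refine ⟨A + B, by rw [map_add, hA, hB, add_zero], fun τ v hv => ?_⟩
      have : ((c + c') τ - flCobdry r (A + B) τ) v =
          (c τ - flCobdry r A τ) v + (c' τ - flCobdry r B τ) v := by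
        rw [flCobdry_add]
        simp only [Pi.add_apply, LinearMap.sub_apply, LinearMap.add_apply]
        abel
      rw [this]
      exact ℓ.add_mem (hA' τ v hv) (hB' τ v hv)
  neg_mem' := by
    rintro c ⟨h1, h2, h3, h4⟩
    refine ⟨fun σ τ => ?_, fun τ => ?_, fun τ hτ => ?_, fun ℓ hℓ hst hI => ?_⟩
    · simp only [Pi.neg_apply, h1 σ τ, mul_neg, neg_mul]
      abel
    · simp only [Pi.neg_apply, map_neg, h2 τ, neg_zero]
    · simp only [Pi.neg_apply, h3 τ hτ, neg_zero]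
    · obtain ⟨A, hA, hA'⟩ := h4 ℓ hℓ hst hI
      refine ⟨-A, by rw [map_neg, hA, neg_zero], fun τ v hv => ?_⟩
      have : ((-c) τ - flCobdry r (-A) τ) v = -((c τ - flCobdry r A τ) v) := by
        rw [flCobdry_neg]
        simp only [Pi.neg_apply, LinearMap.sub_apply, LinearMap.neg_apply]
        abel
      rw [this]
      exact ℓ.neg_mem (hA' τ v hv)

theorem mem_flZ (r : lbGal p →* Module.End k V) (L : IntermediateField ℚ_[p] (PadicAlgCl p))
    (c : lbGal p → Module.End k V) :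
    c ∈ flZ r L ↔ IsFlCocycle r c ∧ (∀ τ, LinearMap.trace k V (c τ) = 0) ∧
      (∀ τ ∈ L.fixingSubgroup, c τ = 0) ∧ FlBorelCond r c := Iff.rfl

theorem flZ_mono (r : lbGal p →* Module.End k V) {L L' : IntermediateField ℚ_[p] (PadicAlgCl p)}
    (h : L ≤ L') : flZ r L ≤ flZ r L' := by
  rintro c ⟨h1, h2, h3, h4⟩
  exact ⟨h1, h2, fun τ hτ => h3 τ (IntermediateField.fixingSubgroup_antitone h hτ), h4⟩

/-- coboundaries belong to `flZ r L` as soon as `r` is trivial on `Gal(ℚ̄_p/L)` -/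
theorem flCobdry_mem_flZ [Module.Finite k V] (r : lbGal p →* Module.End k V)
    (L : IntermediateField ℚ_[p] (PadicAlgCl p))
    (hL : ∀ τ ∈ L.fixingSubgroup, r τ = 1) (A : Module.End k V) (hA : LinearMap.trace k V A = 0) :
    flCobdry r A ∈ flZ r L := by
  refine ⟨flCobdry_isFlCocycle r A, flCobdry_trace r A, fun τ hτ => ?_, fun ℓ _ _ _ =>
    ⟨A, hA, fun τ v hv => ?_⟩⟩
  · have h1 : r τ⁻¹ = 1 := hL _ (inv_mem hτ)
    simp [flCobdry, hL τ hτ, h1]
  · rw [sub_self]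
    exact ℓ.zero_mem

/-- elements of `flZ r L` are smooth -/
theorem flZ_isLC (r : lbGal p →* Module.End k V) (L : IntermediateField ℚ_[p] (PadicAlgCl p))
    [FiniteDimensional ℚ_[p] ↥L] (c : lbGal p → Module.End k V) (hc : c ∈ flZ r L) :
    IsLC₁ (lbLevels p) c := by
  obtain ⟨h1, -, h3, -⟩ := hc
  refine ⟨L.fixingSubgroup, (lbLevels_isLevel_iff p _).2 ⟨L, inferInstance, rfl⟩, fun g s hs => ?_⟩
  rw [h1 g s, h3 s hs, mul_zero, zero_mul, add_zero]

end Step2

section Step3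

variable {p : ℕ} [Fact p.Prime] {k : Type} [Field k]
  {V : Type} [AddCommGroup V] [Module k V]

variable (L : IntermediateField ℚ_[p] (PadicAlgCl p)) [IsGalois ℚ_[p] ↥L]

/-- restriction `Gal(ℚ̄_p/ℚ_p) → Gal(L/ℚ_p)` -/
abbrev flmRes : lbGal p →* (↥L ≃ₐ[ℚ_[p]] ↥L) :=
  AlgEquiv.restrictNormalHom (F := ℚ_[p]) (K₁ := PadicAlgCl p) ↥L

theorem flmRes_surjective : Function.Surjective (flmRes L) :=
  AlgEquiv.restrictNormalHom_surjective (F := ℚ_[p]) (K₁ := ↥L) (PadicAlgCl p)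

theorem flmRes_ker : (flmRes L).ker = L.fixingSubgroup :=
  IntermediateField.restrictNormalHom_ker L

theorem flmRes_apply (τ : lbGal p) (x : ↥L) : ((flmRes L τ x : ↥L) : PadicAlgCl p) = τ x :=
  AlgEquiv.restrictNormalHom_apply L τ x

theorem flm_r_eq_of_res_eq (r : lbGal p →* Module.End k V)
    (hL : ∀ τ ∈ L.fixingSubgroup, r τ = 1) {τ τ' : lbGal p} (h : flmRes L τ = flmRes L τ') :
    r τ = r τ' := by
  have h2 : τ⁻¹ * τ' ∈ L.fixingSubgroup := by
    rw [← flmRes_ker, MonoidHom.mem_ker, map_mul, map_inv, h, inv_mul_cancel]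
  have h3 : τ' = τ * (τ⁻¹ * τ') := by group
  rw [h3, map_mul, hL _ h2, mul_one]

/-- `r` descends to `Gal(L/ℚ_p)` -/
def flmBar (r : lbGal p →* Module.End k V) (hL : ∀ τ ∈ L.fixingSubgroup, r τ = 1) :
    (↥L ≃ₐ[ℚ_[p]] ↥L) →* Module.End k V where
  toFun g := r (Function.surjInv (flmRes_surjective L) g)
  map_one' := by
    rw [← map_one r]
    apply flm_r_eq_of_res_eq L r hL
    rw [Function.surjInv_eq (flmRes_surjective L), map_one]
  map_mul' g h := by
    rw [← map_mul r]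
    apply flm_r_eq_of_res_eq L r hL
    rw [Function.surjInv_eq (flmRes_surjective L), map_mul,
      Function.surjInv_eq (flmRes_surjective L), Function.surjInv_eq (flmRes_surjective L)]

theorem flmBar_apply (r : lbGal p →* Module.End k V) (hL : ∀ τ ∈ L.fixingSubgroup, r τ = 1)
    (τ : lbGal p) : flmBar L r hL (flmRes L τ) = r τ := by
  show r (Function.surjInv (flmRes_surjective L) (flmRes L τ)) = r τ
  apply flm_r_eq_of_res_eq L r hL
  rw [Function.surjInv_eq (flmRes_surjective L)]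

/-- a function on `Gal(ℚ̄_p/ℚ_p)` descends to `Gal(L/ℚ_p)` -/
def flmBarFun {X : Type*} (c : lbGal p → X) : (↥L ≃ₐ[ℚ_[p]] ↥L) → X :=
  fun g => c (Function.surjInv (flmRes_surjective L) g)

theorem flmBarFun_apply (r : lbGal p →* Module.End k V) (c : lbGal p → Module.End k V)
    (hc : IsFlCocycle r c) (h0 : ∀ τ ∈ L.fixingSubgroup, c τ = 0) (τ : lbGal p) :
    flmBarFun L c (flmRes L τ) = c τ := by
  unfold flmBarFun
  set τ' := Function.surjInv (flmRes_surjective L) (flmRes L τ) with hτ'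
  have h1 : flmRes L τ' = flmRes L τ := Function.surjInv_eq _ _
  have h2 : τ⁻¹ * τ' ∈ L.fixingSubgroup := by
    rw [← flmRes_ker, MonoidHom.mem_ker, map_mul, map_inv, h1, inv_mul_cancel]
  have h3 : τ' = τ * (τ⁻¹ * τ') := by group
  rw [h3, hc, h0 _ h2, mul_zero, zero_mul, add_zero]

end Step3

section Data

variable {p : ℕ} [Fact p.Prime] {k : Type} [Field k] [CharP k p]
  {V : Type} [AddCommGroup V] [Module k V] [Module.Finite k V]

/-- the `p`-th roots of unity lie in every field `L` such that `r` is trivial on `Gal(ℚ̄_p/L)` -/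
theorem flm_root_mem (r : lbGal p →* Module.End k V)
    (hdet : ∀ (τ : lbGal p) (a : ℕ), FlCyc τ a → LinearMap.det (r τ) = (a : k))
    (L : IntermediateField ℚ_[p] (PadicAlgCl p)) (hL : ∀ τ ∈ L.fixingSubgroup, r τ = 1)
    {ζ : PadicAlgCl p} (hζ : IsPrimitiveRoot ζ p) : ζ ∈ L := by
  rw [← InfiniteGalois.fixedField_fixingSubgroup L, IntermediateField.mem_fixedField_iff]
  intro τ hτ
  obtain ⟨a, ha⟩ := flm_exists_flCyc τ
  have h1 := hdet τ a ha
  rw [hL τ hτ, map_one] at h1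
  have h2 : ((a : ℕ) : k) = ((1 : ℕ) : k) := by rw [← h1, Nat.cast_one]
  have hmod : a ≡ 1 [MOD p] := (CharP.natCast_eq_natCast k p).1 h2
  rw [ha ζ hζ.pow_eq_one]
  have hred : ∀ n : ℕ, ζ ^ n = ζ ^ (n % p) := fun n => by
    conv_lhs => rw [← Nat.mod_add_div n p, pow_add, pow_mul, hζ.pow_eq_one, one_pow, mul_one]
  have h3 : ζ ^ a = ζ ^ 1 := by
    rw [hred a, hred 1]
    exact congrArg (fun n => ζ ^ n) hmod
  rw [h3, pow_one]

variable (H : Type) [CommRing H] [HopfAlgebra (GaloisRep.ratLocalizedAt p) H]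
  [Module.Finite (GaloisRep.ratLocalizedAt p) H] [Module.Flat (GaloisRep.ratLocalizedAt p) H]
  [Coalgebra.IsCocomm (GaloisRep.ratLocalizedAt p) H]

/-- the structure of `Gal(L/ℚ_p)` for the split field `L` of a finite flat group scheme killed by `p`
over which `r` is trivial -/
theorem flm_exists_data (hp2 : p ≠ 2) (r : lbGal p →* Module.End k V)
    (hdet : ∀ (τ : lbGal p) (a : ℕ), FlCyc τ a → LinearMap.det (r τ) = (a : k))
    (hkill : ∀ x : flPts p H, x ^ p = 1)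
    (hL : ∀ τ ∈ (hpfSplitField p (GaloisRep.ratLocalizedAt p) H (PadicAlgCl p)).fixingSubgroup,
      r τ = 1) :
    ∃ D : TameKummerData p
        (↥(hpfSplitField p (GaloisRep.ratLocalizedAt p) H (PadicAlgCl p)) ≃ₐ[ℚ_[p]]
          ↥(hpfSplitField p (GaloisRep.ratLocalizedAt p) H (PadicAlgCl p))),
      (∀ σ ∈ locInertia p,
        flmRes (hpfSplitField p (GaloisRep.ratLocalizedAt p) H (PadicAlgCl p)) σ ∈ D.I) ∧
      (∀ g ∈ D.I, ∃ σ ∈ locInertia p,
        flmRes (hpfSplitField p (GaloisRep.ratLocalizedAt p) H (PadicAlgCl p)) σ = g) ∧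
      ∀ τ : lbGal p, FlCyc τ ((D.ω
        (flmRes (hpfSplitField p (GaloisRep.ratLocalizedAt p) H (PadicAlgCl p)) τ) : ZMod p).val) := by
  set L := hpfSplitField p (GaloisRep.ratLocalizedAt p) H (PadicAlgCl p) with hLdef
  have hB : FlBounded p ↥L := hpf_top_prelude p H hkill
  obtain ⟨ζ, hζ⟩ := flm_exists_primitiveRoot p
  have hζL : ζ ∈ L := flm_root_mem r hdet L hL hζ
  have hζ' : IsPrimitiveRoot (⟨ζ, hζL⟩ : ↥L) p :=
    (IsPrimitiveRoot.coe_submonoidClass_iff (N := L) (ζ := ⟨ζ, hζL⟩)).1 hζ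
  obtain ⟨D, hDω, hDI⟩ := fl_exists_tameKummerData p hp2 ↥L hB hζ'
  have hnorm : ∀ x : ↥L, spectralNorm ℚ_[p] ↥L x = ‖(x : PadicAlgCl p)‖ := fun x =>
    spectralNorm.eq_of_tower (K := ℚ_[p]) (E := ↥L) (L := PadicAlgCl p) x
  refine ⟨D, ?_, ?_, ?_⟩
  · intro σ hσ
    rw [hDI]
    intro y hy
    rw [hnorm]
    have h1 : ((flmRes L σ y - y : ↥L) : PadicAlgCl p) = σ (y : PadicAlgCl p) - y := by
      rw [AddSubgroupClass.coe_sub, flmRes_apply]
    rw [h1]
    apply hσ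
    rw [← hnorm]
    exact hy
  · intro g hg
    rw [hDI] at hg
    obtain ⟨τ, hτ, hτg⟩ := loc_exists_inertia_lift p L g (fun x hx => by
      have h1 := hg x (by rw [mem_lfInt_iff, hnorm]; exact hx)
      rw [hnorm, AddSubgroupClass.coe_sub] at h1
      exact h1)
    refine ⟨τ, hτ, ?_⟩
    ext x
    rw [flmRes_apply, hτg]
  · intro τ
    apply flm_flCyc_of_root hζ
    have h1 := hDω (flmRes L τ) ⟨ζ, hζL⟩ (by
      apply Subtype.ext
      rw [SubmonoidClass.coe_pow]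
      exact hζ.pow_eq_one)
    have h2 := congrArg (fun x : ↥L => (x : PadicAlgCl p)) h1
    simp only [flmRes_apply, SubmonoidClass.coe_pow] at h2
    exact h2

end Data

section Count

variable {p : ℕ} [Fact p.Prime] {k : Type} [Field k] [Finite k] [CharP k p]
  {V : Type} [AddCommGroup V] [Module k V] [Module.Finite k V]

/-- inertia acts non-trivially on `μ_p` (as soon as a good field trivialising `r` exists) -/
theorem flm_exists_inertia_ne_one (hp2 : p ≠ 2) (r : lbGal p →* Module.End k V)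
    (hdet : ∀ (τ : lbGal p) (a : ℕ), FlCyc τ a → LinearMap.det (r τ) = (a : k))
    (L : IntermediateField ℚ_[p] (PadicAlgCl p)) (hgood : FlGood p L)
    (hL : ∀ τ ∈ L.fixingSubgroup, r τ = 1) :
    ∃ σ ∈ locInertia p, ∃ a : ℕ, FlCyc σ a ∧ (a : k) ≠ 1 := by
  obtain ⟨H, _, _, hfin, hfl, hco, hkill, rfl⟩ := hgood
  obtain ⟨D, h1, h2, h3⟩ := flm_exists_data H hp2 r hdet hkill hL
  obtain ⟨g, hg, hω⟩ := flm_exists_omega_ne_one hp2 D
  obtain ⟨σ, hσ, rfl⟩ := h2 g hg
  refine ⟨σ, hσ, _, h3 σ, ?_⟩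
  intro h
  apply hω
  have hp : p.Prime := Fact.out
  haveI : NeZero p := ⟨hp.ne_zero⟩
  set w := D.ω (flmRes (hpfSplitField p (GaloisRep.ratLocalizedAt p) H (PadicAlgCl p)) σ) with hw
  have h4 : (((w : ZMod p).val : ℕ) : k) = ((1 : ℕ) : k) := by rw [Nat.cast_one]; exact h
  have h5 := (CharP.natCast_eq_natCast k p).1 h4
  have h6 := (ZMod.natCast_eq_natCast_iff _ _ p).2 h5
  rw [ZMod.natCast_zmod_val, Nat.cast_one] at h6
  exact Units.ext h6

theorem flm_finite_end : Finite (Module.End k V) := Module.finite_of_finite k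

/-- **the count for one good field** -/
theorem flm_card_flZ_le (hp2 : p ≠ 2) (hV : Module.finrank k V = 2)
    (r : lbGal p →* Module.End k V)
    (hdet : ∀ (τ : lbGal p) (a : ℕ), FlCyc τ a → LinearMap.det (r τ) = (a : k))
    (hsplit : ∀ τ : lbGal p, ∃ α β : k, LinearMap.charpoly (r τ) = (X - C α) * (X - C β))
    (L : IntermediateField ℚ_[p] (PadicAlgCl p)) (hgood : FlGood p L)
    (hL : ∀ τ ∈ L.fixingSubgroup, r τ = 1)
    (hcompl : ∀ ℓ₁ : Submodule k V, Module.finrank k ↥ℓ₁ = 1 →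
      (∀ τ : lbGal p, ∀ v ∈ ℓ₁, r τ v ∈ ℓ₁) → (∀ σ ∈ locInertia p, ∀ v ∈ ℓ₁, r σ v = v) →
      ∃ ℓ' : Submodule k V, Module.finrank k ↥ℓ' = 1 ∧ (∀ τ : lbGal p, ∀ v ∈ ℓ', r τ v ∈ ℓ') ∧
        ℓ₁ ⊓ ℓ' = ⊥) :
    Finite ↥(flZ r L) ∧ Nat.card ↥(flZ r L) ≤ Nat.card k ^ 4 := by
  obtain ⟨H, _, _, hfin, hfl, hco, hkill, rfl⟩ := hgood
  set L := hpfSplitField p (GaloisRep.ratLocalizedAt p) H (PadicAlgCl p) with hLdef
  obtain ⟨D, hI1, -, hcyc⟩ := flm_exists_data H hp2 r hdet hkill hL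
  haveI : Finite (Module.End k V) := flm_finite_end
  set rbar := flmBar L r hL with hrbar
  have hsurj := flmRes_surjective L
  have hrb : ∀ τ, rbar (flmRes L τ) = r τ := flmBar_apply L r hL
  have hrbinv : ∀ τ, rbar (flmRes L τ)⁻¹ = r τ⁻¹ := fun τ => by rw [← map_inv, hrb]
  -- the hypotheses of `fl_count`
  have hdet' : ∀ g, LinearMap.det (rbar g) = (((D.ω g : (ZMod p)ˣ) : ZMod p).val : k) := by
    intro g
    obtain ⟨τ, rfl⟩ := hsurj g
    rw [hrb]
    exact hdet τ _ (hcyc τ)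
  have hsplit' : ∀ g, ∃ α β : k, LinearMap.charpoly (rbar g) = (X - C α) * (X - C β) := by
    intro g
    obtain ⟨τ, rfl⟩ := hsurj g
    rw [hrb]
    exact hsplit τ
  have hcompl' : ∀ ℓ₁ : Submodule k V, IsStableLine rbar ℓ₁ →
      (∀ σ ∈ D.I, ∀ v ∈ ℓ₁, rbar σ v = v) →
      ∃ ℓ' : Submodule k V, IsStableLine rbar ℓ' ∧ ℓ₁ ⊓ ℓ' = ⊥ := by
    intro ℓ₁ hst hI
    obtain ⟨ℓ', h1, h2, h3⟩ := hcompl ℓ₁ hst.1
      (fun τ v hv => by rw [← hrb]; exact hst.2 _ v hv)
      (fun σ hσ v hv => by rw [← hrb]; exact hI _ (hI1 σ hσ) v hv)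
    refine ⟨ℓ', ⟨h1, fun g v hv => ?_⟩, h3⟩
    obtain ⟨τ, rfl⟩ := hsurj g
    rw [hrb]
    exact h2 τ v hv
  -- the injection
  have key : ∀ c : ↥(flZ r L), IsAdCocycle rbar (flmBarFun L c.1) ∧
      ∀ ℓ : Submodule k V, IsStableLine rbar ℓ → (∀ σ ∈ D.I, ∀ v : V, rbar σ v - v ∈ ℓ) →
        IsBorelUpToCobdry rbar ℓ (flmBarFun L c.1) := by
    rintro ⟨c, hc, htr, h0, hB⟩
    have hcb : ∀ τ, flmBarFun L c (flmRes L τ) = c τ := flmBarFun_apply L r c hc h0
    refine ⟨⟨fun g h => ?_, fun g => ?_⟩, fun ℓ hst hI => ?_⟩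
    · obtain ⟨σ, rfl⟩ := hsurj g
      obtain ⟨τ, rfl⟩ := hsurj h
      rw [← map_mul, hcb, hcb, hcb, hrb, hrbinv]
      exact hc σ τ
    · obtain ⟨τ, rfl⟩ := hsurj g
      rw [hcb]
      exact htr τ
    · obtain ⟨A, hA, hA'⟩ := hB ℓ hst.1
        (fun τ v hv => by rw [← hrb]; exact hst.2 _ v hv)
        (fun σ hσ v => by rw [← hrb]; exact hI _ (hI1 σ hσ) v)
      refine ⟨A, hA, fun g v hv => ?_⟩
      obtain ⟨τ, rfl⟩ := hsurj g
      have : flmBarFun L c (flmRes L τ) - adCobdry rbar A (flmRes L τ) = c τ - flCobdry r A τ := by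
        rw [hcb]
        unfold adCobdry flCobdry
        rw [hrb, hrbinv]
      rw [this]
      exact hA' τ v hv
  let Φ : ↥(flZ r L) → {c : (↥L ≃ₐ[ℚ_[p]] ↥L) → Module.End k V // IsAdCocycle rbar c ∧
      ∀ ℓ : Submodule k V, IsStableLine rbar ℓ → (∀ σ ∈ D.I, ∀ v : V, rbar σ v - v ∈ ℓ) →
        IsBorelUpToCobdry rbar ℓ c} := fun c => ⟨flmBarFun L c.1, key c⟩
  have hΦ : Function.Injective Φ := by
    rintro ⟨c, hc⟩ ⟨c', hc'⟩ h
    have h1 : flmBarFun L c = flmBarFun L c' := congrArg Subtype.val h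
    apply Subtype.ext
    funext τ
    show c τ = c' τ
    rw [← flmBarFun_apply L r c hc.1 hc.2.2.1 τ, ← flmBarFun_apply L r c' hc'.1 hc'.2.2.1 τ, h1]
  exact ⟨Finite.of_injective Φ hΦ, (Nat.card_le_card_of_injective Φ hΦ).trans
    (fl_count hp2 D hV rbar hdet' hsplit' hcompl')⟩

end Count

end Fermat.Agent.S56
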