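/-
S56 / FLAT package (helper25): `fl_main`, the local condition at `p` for flat deformations, assembled
from the leaves of `Flat/Spec.lean` (TENSOR, KUM, CNT, CE-APP) + HOPF `hpf_top_prelude` + LOC S4.
-/
import Fermat.Agent.S56.Flat.MainLocal

set_option autoImplicit false
set_option linter.unusedVariables false
set_option linter.unusedSectionVars false

noncomputable section

namespace Fermat.Agent.S56

open Fermat.Agent.S55 Polynomial

section Main

variable {p : ℕ} [Fact p.Prime] {k : Type} [Field k]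
  {V : Type} [AddCommGroup V] [Module k V]

theorem FlGood.finiteDimensional {L : IntermediateField ℚ_[p] (PadicAlgCl p)} (h : FlGood p L) :
    FiniteDimensional ℚ_[p] ↥L := by
  obtain ⟨H, _, _, hfin, hfl, hco, hkill, rfl⟩ := h
  infer_instance

/-- the good fields over which `r` is trivial -/
def flmS (r : lbGal p →* Module.End k V) : Set (IntermediateField ℚ_[p] (PadicAlgCl p)) :=
  {L | FlGood p L ∧ ∀ τ ∈ L.fixingSubgroup, r τ = 1}

theorem flm_directed (r : lbGal p →* Module.End k V) :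
    Directed (· ≤ ·) (fun L : flmS r => flZ r L.1) := by
  rintro ⟨L₁, h₁, h₁'⟩ ⟨L₂, h₂, h₂'⟩
  obtain ⟨L₃, h₃, h13, h23⟩ := fl_good_sup p L₁ L₂ h₁ h₂
  exact ⟨⟨L₃, h₃, fun τ hτ => h₁' τ (IntermediateField.fixingSubgroup_antitone h13 hτ)⟩,
    flZ_mono r h13, flZ_mono r h23⟩

/-- the coboundary map as an additive hom -/
def flCobdryHom (r : lbGal p →* Module.End k V) :
    Module.End k V →+ (lbGal p → Module.End k V) where
  toFun := flCobdry r
  map_zero' := flCobdry_zero r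
  map_add' := flCobdry_add r

variable [Finite k] [CharP k p] [Module.Finite k V]

theorem flm_card_end (hV : Module.finrank k V = 2) : Nat.card (Module.End k V) = Nat.card k ^ 4 := by
  rw [Module.natCard_eq_pow_finrank (K := k) (V := Module.End k V), Module.finrank_linearMap, hV]

/-- **FLAT MAIN.**  `r` = restriction of `ρ̄` to `Γ = Gal(ℚ̄_p/ℚ_p)`. -/
theorem fl_main (hp2 : p ≠ 2) (hV : Module.finrank k V = 2) (r : lbGal p →* Module.End k V)
    (hsm : ∃ E : IntermediateField ℚ_[p] (PadicAlgCl p), FiniteDimensional ℚ_[p] ↥E ∧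
      ∀ τ ∈ E.fixingSubgroup, r τ = 1)
    (hdet : ∀ (τ : lbGal p) (a : ℕ), FlCyc τ a → LinearMap.det (r τ) = (a : k))
    (hsplit : ∀ τ : lbGal p, ∃ α β : k, LinearMap.charpoly (r τ) = (X - C α) * (X - C β)) :
    ∃ Z : AddSubgroup (lbGal p → Module.End k V),
      (∀ c ∈ Z, IsFlCocycle r c ∧ (∀ τ, LinearMap.trace k V (c τ) = 0) ∧ IsLC₁ (lbLevels p) c) ∧
      (∀ A : Module.End k V, LinearMap.trace k V A = 0 → flCobdry r A ∈ Z) ∧
      (∀ c : lbGal p → Module.End k V, IsFlCocycle r c → (∀ τ, LinearMap.trace k V (c τ) = 0) →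
        IsLC₁ (lbLevels p) c → LocFlat p (flExtAct r c) → c ∈ Z) ∧
      Finite ↥Z ∧ Nat.card ↥Z ≤ Nat.card k ^ 4 := by
  classical
  haveI : Finite (Module.End k V) := flm_finite_end
  by_cases hex : ∃ c₀ : lbGal p → Module.End k V, IsFlCocycle r c₀ ∧ LocFlat p (flExtAct r c₀)
  · obtain ⟨c₀, hc₀, hfl₀⟩ := hex
    obtain ⟨L₀, hg₀, hL₀⟩ := flm_good_of_flat r c₀ hfl₀
    have hL₀r : ∀ τ ∈ L₀.fixingSubgroup, r τ = 1 := fun τ hτ => (hL₀ τ hτ).1
    haveI : Nonempty ↥(flmS r) := ⟨⟨L₀, hg₀, hL₀r⟩⟩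
    obtain ⟨σ₀, hσ₀, a₀, ha₀, hne₀⟩ := flm_exists_inertia_ne_one hp2 r hdet L₀ hg₀ hL₀r
    have hcompl : ∀ ℓ₁ : Submodule k V, Module.finrank k ↥ℓ₁ = 1 →
        (∀ τ : lbGal p, ∀ v ∈ ℓ₁, r τ v ∈ ℓ₁) → (∀ σ ∈ locInertia p, ∀ v ∈ ℓ₁, r σ v = v) →
        ∃ ℓ' : Submodule k V, Module.finrank k ↥ℓ' = 1 ∧
          (∀ τ : lbGal p, ∀ v ∈ ℓ', r τ v ∈ ℓ') ∧ ℓ₁ ⊓ ℓ' = ⊥ := by
      intro ℓ₁ h1 h2 h3
      apply fl_complement_of_flat hp2 hV r hdet c₀ hc₀ hfl₀ ℓ₁ h1 h2 h3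
      by_contra hcon
      push Not at hcon
      have h4 := flm_det_eq_one hV (r σ₀) ℓ₁ h1 (h3 σ₀ hσ₀) (hcon σ₀ hσ₀)
      rw [hdet σ₀ a₀ ha₀] at h4
      exact hne₀ h4
    have hmem : ∀ c : lbGal p → Module.End k V,
        c ∈ (⨆ L : ↥(flmS r), flZ r L.1) ↔ ∃ L : ↥(flmS r), c ∈ flZ r L.1 :=
      fun c => AddSubgroup.mem_iSup_of_directed (flm_directed r)
    refine ⟨⨆ L : ↥(flmS r), flZ r L.1, ?_, ?_, ?_, ?_⟩
    · intro c hc
      obtain ⟨L, hL⟩ := (hmem c).1 hc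
      haveI : FiniteDimensional ℚ_[p] ↥L.1 := L.2.1.finiteDimensional
      exact ⟨hL.1, hL.2.1, flZ_isLC r L.1 c hL⟩
    · intro A hA
      exact (hmem _).2 ⟨⟨L₀, hg₀, hL₀r⟩, flCobdry_mem_flZ r L₀ hL₀r A hA⟩
    · intro c hc htr hlc hfl
      obtain ⟨L, hg, hL⟩ := flm_good_of_flat r c hfl
      refine (hmem _).2 ⟨⟨L, hg, fun τ hτ => (hL τ hτ).1⟩, hc, htr, fun τ hτ => (hL τ hτ).2, ?_⟩
      intro ℓ hℓ hst hI
      apply fl_borel_of_flat hp2 hV r hdet c hc hfl ℓ hℓ hst hI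
      by_contra hcon
      push Not at hcon
      have h4 := flm_det_eq_one hV (r σ₀) ℓ hℓ (fun v hv => hcon σ₀ hσ₀ v hv) (hI σ₀ hσ₀)
      rw [hdet σ₀ a₀ ha₀] at h4
      exact hne₀ h4
    · apply flm_card_le_of_finset
      intro T
      -- all elements of `T` lie in one `flZ r L`
      choose Lc hLc using fun c : ↥(⨆ L : ↥(flmS r), flZ r L.1) => (hmem c.1).1 c.2
      obtain ⟨L, hL⟩ := (flm_directed r).finset_le (T.image Lc)
      have hTL : ∀ c ∈ T, (c : lbGal p → Module.End k V) ∈ flZ r L.1 := fun c hc =>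
        hL (Lc c) (Finset.mem_image_of_mem Lc hc) (hLc c)
      obtain ⟨hfin, hcard⟩ := flm_card_flZ_le hp2 hV r hdet hsplit L.1 L.2.1 L.2.2 hcompl
      haveI := hfin
      let f : {c // c ∈ T} → ↥(flZ r L.1) := fun c => ⟨c.1.1, hTL c.1 c.2⟩
      have hf : Function.Injective f := by
        intro c c' h
        apply Subtype.ext
        apply Subtype.ext
        exact congrArg (fun x : ↥(flZ r L.1) => (x : lbGal p → Module.End k V)) h
      have h1 := Nat.card_le_card_of_injective f hf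
      rw [Nat.card_eq_fintype_card, Fintype.card_coe] at h1
      exact h1.trans hcard
  · -- no flat cocycle: take the coboundaries
    obtain ⟨E, hE, hEr⟩ := hsm
    set S : AddSubgroup (Module.End k V) := (LinearMap.ker (LinearMap.trace k V)).toAddSubgroup
      with hS
    refine ⟨S.map (flCobdryHom r), ?_, ?_, ?_, ?_⟩
    · rintro c ⟨A, hA, rfl⟩
      refine ⟨flCobdry_isFlCocycle r A, flCobdry_trace r A, E.fixingSubgroup,
        (lbLevels_isLevel_iff p _).2 ⟨E, hE, rfl⟩, fun g s hs => ?_⟩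
      show flCobdry r A (g * s) = flCobdry r A g
      have h1 : r s = 1 := hEr s hs
      have h2 : r s⁻¹ = 1 := hEr _ (inv_mem hs)
      simp only [flCobdry, map_mul, mul_inv_rev, h1, h2, mul_one, one_mul]
    · intro A hA
      exact ⟨A, LinearMap.mem_ker.2 hA, rfl⟩
    · intro c hc _ _ hfl
      exact absurd ⟨c, hc, hfl⟩ hex
    · have hsurj : Function.Surjective
          (fun A : ↥S => (⟨flCobdryHom r A.1, ⟨A.1, A.2, rfl⟩⟩ : ↥(S.map (flCobdryHom r)))) := by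
        rintro ⟨c, A, hA, rfl⟩
        exact ⟨⟨A, hA⟩, rfl⟩
      have h1 := Nat.card_le_card_of_surjective _ hsurj
      have h2 : Nat.card ↥S ≤ Nat.card (Module.End k V) :=
        Nat.card_le_card_of_injective _ Subtype.val_injective
      rw [flm_card_end hV] at h2
      exact ⟨Finite.of_surjective _ hsurj, h1.trans h2⟩

end Main

end Fermat.Agent.S56
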