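/-
S56 / FLAT leaf TANFLAT (row 454): a lift `ρ'` of `ρ̄` to the dual numbers in normal form
`(1 + ε z) ρ̄` (`S56IsTanLift`, `Tan/Lift.lean`) which is flat at `p` in the Prelude's sense gives the
local flatness of the extension `V × V` with action `flExtAct`.
(Helper names are prefixed `fltf`.)
-/
import Fermat.Agent.S56.Flat.Defs
import Fermat.Agent.S56.Flat.Bridge
import Fermat.Agent.S56.Tan.Lift

set_option autoImplicit false
set_option linter.unusedVariables false
set_option linter.unusedSectionVars false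

noncomputable section

namespace Fermat.Agent.S56

open Fermat.Agent.S55

local notation "GQ'" => AlgebraicClosure ℚ ≃ₐ[ℚ] AlgebraicClosure ℚ

section Coordinates

variable {k : Type} [Field k]

/-- coordinates over the dual numbers split into constant and `ε`-parts -/
def fltfSplit : (Fin 2 → DualNumber k) ≃+ (Fin 2 → k) × (Fin 2 → k) where
  toFun a := (fun i => TrivSqZeroExt.fst (a i), fun i => TrivSqZeroExt.snd (a i))
  invFun u := fun i => TrivSqZeroExt.inl (u.1 i) + TrivSqZeroExt.inr (u.2 i)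
  left_inv a := by
    funext i
    exact TrivSqZeroExt.inl_fst_add_inr_snd_eq (a i)
  right_inv u := by
    ext i <;> simp
  map_add' a b := by
    ext i <;> simp

theorem fltfSplit_mulVec (R B : Matrix (Fin 2) (Fin 2) k) (a : Fin 2 → DualNumber k) :
    fltfSplit ((s56tanMk R B).mulVec a) =
      (R.mulVec (fltfSplit a).1, R.mulVec (fltfSplit a).2 + B.mulVec (fltfSplit a).1) := by
  have hent : ∀ i j, (s56tanMk R B) i j = TrivSqZeroExt.inl (R i j) + TrivSqZeroExt.inr (B i j) :=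
    fun i j => rfl
  refine Prod.ext ?_ ?_
  · funext i
    show TrivSqZeroExt.fst (∑ j, (s56tanMk R B) i j * a j) = ∑ j, R i j * TrivSqZeroExt.fst (a j)
    rw [TrivSqZeroExt.fst_sum]
    refine Finset.sum_congr rfl fun j _ => ?_
    rw [hent, TrivSqZeroExt.fst_mul, TrivSqZeroExt.fst_add, TrivSqZeroExt.fst_inl,
      TrivSqZeroExt.fst_inr, add_zero]
  · funext i
    show TrivSqZeroExt.snd (∑ j, (s56tanMk R B) i j * a j) =
      ∑ j, R i j * TrivSqZeroExt.snd (a j) + ∑ j, B i j * TrivSqZeroExt.fst (a j)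
    rw [TrivSqZeroExt.snd_sum, ← Finset.sum_add_distrib]
    refine Finset.sum_congr rfl fun j _ => ?_
    rw [hent, TrivSqZeroExt.snd_mul, TrivSqZeroExt.fst_add, TrivSqZeroExt.fst_inl,
      TrivSqZeroExt.fst_inr, add_zero, TrivSqZeroExt.snd_add, TrivSqZeroExt.snd_inl,
      TrivSqZeroExt.snd_inr, zero_add, smul_eq_mul, MulOpposite.smul_eq_mul_unop,
      MulOpposite.unop_op, mul_comm (B i j)]

end Coordinates

variable {k : Type} [Field k] [Finite k] (p : ℕ) [Fact p.Prime] [CharP k p]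

/-- **leaf TANFLAT.** -/
theorem fl_locFlat_of_tanLift (ρbar : ResidualGaloisRep k)
    (bbar : Module.Basis (Fin 2) k ρbar.V) (ρ' : GaloisRepAdic (DualNumber k))
    (z : GQ' → Module.End k ρbar.V) (hlift : S56IsTanLift ρbar bbar ρ' z)
    (hflat : ρ'.IsFlatAt p) :
    LocFlat p (flExtAct (ρbar.ρ.comp (localGaloisToGlobal p))
      (fun τ : lbGal p => z (localGaloisToGlobal p τ))) := by
  obtain ⟨b', hb'⟩ := hlift
  haveI : Finite (DualNumber k) := inferInstanceAs (Finite (k × k))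
  have hfinq : Finite (DualNumber k ⧸ (⊥ : Ideal (DualNumber k))) :=
    Finite.of_surjective (Ideal.Quotient.mk ⊥) Ideal.Quotient.mk_surjective
  obtain ⟨H, hH1, hH2, hfin, hfl, hco, e, hadd, heq⟩ := hflat.2 ⊥ hfinq
  -- the global action on `V × V`
  let actQ : GQ' → ρbar.V × ρbar.V → ρbar.V × ρbar.V :=
    fun σ vw => (ρbar.ρ σ vw.1, ρbar.ρ σ vw.2 + z σ (ρbar.ρ σ vw.1))
  -- the additive identification of `ρ'.V` with `V × V`
  let cb : ρbar.V ≃ₗ[k] (Fin 2 → k) := bbar.equivFun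
  let θ : ρ'.V ≃+ ρbar.V × ρbar.V :=
    (b'.equivFun.toAddEquiv.trans fltfSplit).trans
      (AddEquiv.prodCongr cb.symm.toAddEquiv cb.symm.toAddEquiv)
  have hθ : ∀ x : ρ'.V, θ x = (cb.symm (fltfSplit (b'.equivFun x)).1,
      cb.symm (fltfSplit (b'.equivFun x)).2) := fun x => rfl
  have hcb : ∀ (f : Module.End k ρbar.V) (u : Fin 2 → k),
      cb.symm ((LinearMap.toMatrix bbar bbar f).mulVec u) = f (cb.symm u) := by
    intro f u
    apply cb.injective
    rw [LinearEquiv.apply_symm_apply]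
    have h := LinearMap.toMatrix_mulVec_repr bbar bbar f (cb.symm u)
    have h2 : (bbar.repr (cb.symm u) : Fin 2 → k) = u := cb.apply_symm_apply u
    rw [h2] at h
    exact h
  have hequiv : ∀ (σ : GQ') (x : ρ'.V), θ (ρ'.ρ σ x) = actQ σ (θ x) := by
    intro σ x
    have h1 : b'.equivFun (ρ'.ρ σ x) =
        (LinearMap.toMatrix b' b' (ρ'.ρ σ)).mulVec (b'.equivFun x) :=
      (LinearMap.toMatrix_mulVec_repr b' b' (ρ'.ρ σ) x).symm
    rw [hθ, hθ, h1, hb' σ, fltfSplit_mulVec]
    show (cb.symm _, cb.symm _) = (ρbar.ρ σ _, ρbar.ρ σ _ + z σ (ρbar.ρ σ _))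
    rw [hcb, map_add, hcb, hcb, Module.End.mul_apply]
  -- the quotient by `⊥ • ⊤`
  have hbot : ((⊥ : Ideal (DualNumber k)) • (⊤ : Submodule (DualNumber k) ρ'.V)) = ⊥ :=
    Submodule.bot_smul ⊤
  let qe : (ρ'.V ⧸ ((⊥ : Ideal (DualNumber k)) • (⊤ : Submodule (DualNumber k) ρ'.V)))
      ≃ₗ[DualNumber k] ρ'.V := Submodule.quotEquivOfEqBot _ hbot
  have hqe : ∀ x : ρ'.V, qe (Submodule.Quotient.mk x) = x := fun x => rfl
  have hqact : ∀ (σ : GQ') (y : ρ'.V ⧸ ((⊥ : Ideal (DualNumber k)) •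
      (⊤ : Submodule (DualNumber k) ρ'.V))), qe (ρ'.levelAction ⊥ σ y) = ρ'.ρ σ (qe y) := by
    intro σ y
    obtain ⟨x, rfl⟩ := Submodule.Quotient.mk_surjective _ y
    rw [hqe]
    rfl
  have hmain := fl_locFlat_of_global p actQ H hfin hfl hco
    (e.trans (qe.toEquiv.trans θ.toEquiv))
    (fun f g => by
      show θ (qe (e (f * g))) = θ (qe (e f)) + θ (qe (e g))
      rw [hadd, map_add, map_add])
    (fun σ f g hfg => by
      show θ (qe (e g)) = actQ σ (θ (qe (e f)))
      rw [heq σ f g hfg, hqact, hequiv])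
  exact hmain

end Fermat.Agent.S56
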